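/-
S56 / block D (global Euler characteristic), leaf D1 (helper25): THE FUNCTION
`f(Y) = h⁰(G, Y) − h¹(G, Y) + h²(G, Y) + dim Y^{c = −1}` IS ADDITIVE AND ISOMORPHISM INVARIANT,
and its restriction to the representations of a finite quotient `G ⧸ U`.

Generic part (`(G, 𝒰)` a group with a level structure, `c : G` an involution, `2 ≠ 0` in `k`,
`PTHyp D χ tr` = the output of S55, `FiniteH1 𝒰`):

* `minusPart c Y` : the `(−1)`-eigenspace of `c`; `finrank_minusPart_add` (additivity),
  `finrank_minusPart_iso`;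
* `eulerF 𝒰 c Y : ℤ`; **`eulerF_add`**, **`eulerF_iso`**;
* `infl U N : Rep k G` for `N : Rep k (G ⧸ U)`; `isDiscrete_infl`; `deflate`, `inflDeflateIso`;
* `fQuot 𝒰 c U hU : Rep k (G ⧸ U) → ℤ`; **`fQuot_add`**, **`fQuot_iso`**, `eulerF_eq_fQuot`.

Instance `G_S` (`p` odd, `p ∈ S`): `eulerF_add_global`, `fQuot_add_global`.
-/
import Mathlib
import Fermat.Agent.S56.PT.EulerAdd

set_option autoImplicit false
set_option linter.unusedSectionVars false

namespace Fermat.Agent.S56.GEC.Additive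

open CategoryTheory groupCohomology Rep Module Fermat.Agent.S55.Level Fermat.Agent.S55.Cone
  Fermat.Agent.S55.DualTwist Fermat.Agent.S55.LevelDuality
  Fermat.Agent.S56.PT.LocalDuality Fermat.Agent.S56.PT.Selmer Fermat.Agent.S56.PT.EulerAdd

universe u

variable {k G : Type u} [Field k] [Group G]

/-! ### The `(−1)`-eigenspace of an involution -/

section Minus

/-- The `(−1)`-eigenspace of `c` on `Y`. -/
def minusPart (c : G) (Y : Rep.{u} k G) : Submodule k Y :=
  LinearMap.ker ((Y.ρ c : Y →ₗ[k] Y) + LinearMap.id)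

theorem mem_minusPart {c : G} {Y : Rep.{u} k G} {y : Y} :
    y ∈ minusPart c Y ↔ Y.ρ c y = -y := by
  rw [minusPart, LinearMap.mem_ker, LinearMap.add_apply, LinearMap.id_apply,
    add_eq_zero_iff_eq_neg]

/-- A morphism maps the `(−1)`-eigenspace to the `(−1)`-eigenspace. -/
theorem map_mem_minusPart {c : G} {Y Z : Rep.{u} k G} (φ : Y ⟶ Z) {y : Y}
    (hy : y ∈ minusPart c Y) : φ.hom y ∈ minusPart c Z := by
  rw [mem_minusPart] at hy ⊢
  rw [← Rep.hom_comm_apply, hy, map_neg]

/-- The map induced on the `(−1)`-eigenspaces. -/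
def minusMap (c : G) {Y Z : Rep.{u} k G} (φ : Y ⟶ Z) : minusPart c Y →ₗ[k] minusPart c Z :=
  (φ.hom.toLinearMap.restrict (p := minusPart c Y) (q := minusPart c Z)
    fun _ hy => map_mem_minusPart φ hy)

@[simp] theorem coe_minusMap (c : G) {Y Z : Rep.{u} k G} (φ : Y ⟶ Z) (y : minusPart c Y) :
    (minusMap c φ y : Z) = φ.hom y := rfl

theorem minusMap_injective (c : G) {Y Z : Rep.{u} k G} (φ : Y ⟶ Z)
    (hφ : Function.Injective φ.hom) : Function.Injective (minusMap c φ) := by
  intro y y' h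
  apply Subtype.ext
  apply hφ
  exact congrArg Subtype.val h

/-- Isomorphic representations have `(−1)`-eigenspaces of the same dimension. -/
theorem finrank_minusPart_iso (c : G) {Y Z : Rep.{u} k G} [FiniteDimensional k Y]
    [FiniteDimensional k Z] (e : Y ≅ Z) :
    finrank k (minusPart c Y) = finrank k (minusPart c Z) := by
  have h1 : Function.Injective e.hom.hom := by
    intro a b hab
    have := congrArg e.inv.hom hab
    rwa [Rep.inv_hom_apply, Rep.inv_hom_apply] at this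
  have h2 : Function.Injective e.inv.hom := by
    intro a b hab
    have := congrArg e.hom.hom hab
    rwa [Rep.hom_inv_apply, Rep.hom_inv_apply] at this
  exact le_antisymm
    (LinearMap.finrank_le_finrank_of_injective (minusMap_injective c e.hom h1))
    (LinearMap.finrank_le_finrank_of_injective (minusMap_injective c e.inv h2))

open ShortComplex in
/-- **Additivity of the dimension of the `(−1)`-eigenspace of an involution** (`2 ≠ 0`). -/
theorem finrank_minusPart_add {c : G} (hc : c * c = 1) (h2 : (2 : k) ≠ 0)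
    {X : ShortComplex (Rep.{u} k G)} (hX : X.ShortExact) [FiniteDimensional k X.X₂] :
    finrank k (minusPart c X.X₂) = finrank k (minusPart c X.X₁) + finrank k (minusPart c X.X₃) := by
  have hf : Function.Injective X.f.hom := (Rep.mono_iff_injective X.f).1 hX.mono_f
  have hg : Function.Surjective X.g.hom := (Rep.epi_iff_surjective X.g).1 hX.epi_g
  have hzero : ∀ a : X.X₁, X.g.hom (X.f.hom a) = 0 := fun a =>
    congrArg (fun ψ : X.X₁ ⟶ X.X₃ => ψ.hom a) X.zero
  have hex : ∀ b : X.X₂, X.g.hom b = 0 → ∃ a : X.X₁, X.f.hom a = b := by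
    intro b hb
    have : LinearMap.range X.f.hom.toLinearMap = LinearMap.ker X.g.hom.toLinearMap :=
      (hX.exact.map (forget₂ (Rep k G) (ModuleCat k))).moduleCat_range_eq_ker
    have hb' : b ∈ LinearMap.ker X.g.hom.toLinearMap := hb
    rw [← this] at hb'
    exact hb'
  have hcc : ∀ (Y : Rep.{u} k G) (y : Y), Y.ρ c (Y.ρ c y) = y := by
    intro Y y
    have : Y.ρ (c * c) y = y := by rw [hc, map_one]; rfl
    rwa [map_mul] at this
  -- surjectivity on the minus parts
  have hsurj : Function.Surjective (minusMap c X.g) := by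
    rintro ⟨z, hz⟩
    rw [mem_minusPart] at hz
    obtain ⟨y, rfl⟩ := hg z
    have hy' : (2 : k)⁻¹ • (y - X.X₂.ρ c y) ∈ minusPart c X.X₂ := by
      rw [mem_minusPart, map_smul, map_sub, hcc, ← smul_neg, neg_sub]
    refine ⟨⟨_, hy'⟩, Subtype.ext ?_⟩
    show X.g.hom ((2 : k)⁻¹ • (y - X.X₂.ρ c y)) = X.g.hom y
    rw [map_smul, map_sub, Rep.hom_comm_apply, hz, sub_neg_eq_add, ← two_smul k (X.g.hom y),
      smul_smul, inv_mul_cancel₀ h2, one_smul]
  -- exactness in the middle
  have hker : LinearMap.ker (minusMap c X.g) = LinearMap.range (minusMap c X.f) := by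
    ext ⟨y, hy⟩
    constructor
    · intro h0
      have h0' : X.g.hom y = 0 := congrArg Subtype.val (LinearMap.mem_ker.1 h0)
      obtain ⟨a, rfl⟩ := hex y h0'
      have ha : a ∈ minusPart c X.X₁ := by
        rw [mem_minusPart] at hy ⊢
        apply hf
        rw [Rep.hom_comm_apply, hy, map_neg]
      exact ⟨⟨a, ha⟩, Subtype.ext rfl⟩
    · rintro ⟨⟨a, ha⟩, h⟩
      rw [LinearMap.mem_ker]
      apply Subtype.ext
      have : X.f.hom a = y := congrArg Subtype.val h
      show X.g.hom y = 0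
      rw [← this, hzero]
  have r1 := LinearMap.finrank_range_add_finrank_ker (minusMap c X.g)
  have r2 : finrank k (LinearMap.range (minusMap c X.g)) = finrank k (minusPart c X.X₃) := by
    rw [LinearMap.range_eq_top.2 hsurj]
    exact finrank_top k _
  have r3 : finrank k (LinearMap.range (minusMap c X.f)) = finrank k (minusPart c X.X₁) :=
    LinearMap.finrank_range_of_inj (minusMap_injective c X.f hf)
  rw [hker, r2, r3] at r1
  omega

end Minus

/-! ### The function `f = h⁰ − h¹ + h² + dim (·)^{c = −1}` -/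

section EulerF

variable (𝒰 : LevelStructure G) (c : G)

/-- `f(Y) = h⁰(G, Y) − h¹(G, Y) + h²(G, Y) + dim Y^{c = −1}`. -/
noncomputable def eulerF (Y : Rep.{u} k G) [IsDiscrete 𝒰 Y] : ℤ :=
  (finrank k (levelCohomology 𝒰 Y 0) : ℤ) - finrank k (levelCohomology 𝒰 Y 1) +
    finrank k (levelCohomology 𝒰 Y 2) + finrank k (minusPart c Y)

/-- `f` is isomorphism invariant. -/
theorem eulerF_iso {Y Z : Rep.{u} k G} [IsDiscrete 𝒰 Y] [IsDiscrete 𝒰 Z]
    [FiniteDimensional k Y] [FiniteDimensional k Z] (e : Y ≅ Z) :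
    eulerF 𝒰 c Y = eulerF 𝒰 c Z := by
  have h (n : ℕ) : finrank k (levelCohomology 𝒰 Y n) = finrank k (levelCohomology 𝒰 Z n) :=
    LinearEquiv.finrank_eq (LinearEquiv.ofBijective _ (lmap_bijective_of_iso 𝒰 e n))
  unfold eulerF
  rw [h 0, h 1, h 2, finrank_minusPart_iso c e]

variable {𝒰 c}

open ShortComplex in
/-- **`f` is additive on short exact sequences.** -/
theorem eulerF_add {D : LocalData 𝒰} [DecidableEq D.ι] [Fintype D.ι] [Nonempty D.ι]
    {χ : G →* kˣ} [IsDiscrete 𝒰 (ofChar χ)] {tr : Hc D (ofChar χ) 3 →ₗ[k] k}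
    (h : PTHyp D χ tr) (hfin : FiniteH1 (k := k) 𝒰) (hc : c * c = 1) (h2 : (2 : k) ≠ 0)
    {X : ShortComplex (Rep.{u} k G)} [IsDiscrete 𝒰 X.X₁] [IsDiscrete 𝒰 X.X₂] [IsDiscrete 𝒰 X.X₃]
    [FiniteDimensional k X.X₁] [FiniteDimensional k X.X₂] [FiniteDimensional k X.X₃]
    (hX : X.ShortExact) :
    eulerF 𝒰 c X.X₂ = eulerF 𝒰 c X.X₁ + eulerF 𝒰 c X.X₃ := by
  have e1 := euler_additive h hfin hX
  have e2 := finrank_minusPart_add hc h2 hX
  unfold eulerF
  omega

end EulerF

/-! ### Inflation from a finite quotient -/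

section Infl

variable (U : Subgroup G) [U.Normal]

/-- Inflation of a representation of `G ⧸ U` to `G`. -/
abbrev infl (N : Rep.{u} k (G ⧸ U)) : Rep.{u} k G := Rep.res (QuotientGroup.mk' U) N

theorem infl_ρ_apply (N : Rep.{u} k (G ⧸ U)) (g : G) (x : N) :
    (infl U N).ρ g x = N.ρ (g : G ⧸ U) x := rfl

variable {U} in
/-- Inflations are discrete as soon as `U` belongs to the level structure. -/
theorem isDiscrete_infl {𝒰 : LevelStructure G} (hU : U ∈ 𝒰.sets) (N : Rep.{u} k (G ⧸ U)) :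
    IsDiscrete 𝒰 (infl U N) :=
  ⟨fun a => ⟨U, hU, fun u hu => by
    rw [infl_ρ_apply, (QuotientGroup.eq_one_iff u).2 hu, map_one]
    rfl⟩⟩

/-- A representation of `G` on which `U` acts trivially, as a representation of `G ⧸ U`. -/
noncomputable def deflate (Y : Rep.{u} k G) (hY : ∀ u ∈ U, Y.ρ u = 1) : Rep.{u} k (G ⧸ U) :=
  Rep.of (X := Y.V) (QuotientGroup.lift U Y.ρ hY)

theorem deflate_ρ_apply (Y : Rep.{u} k G) (hY : ∀ u ∈ U, Y.ρ u = 1) (g : G) (y : Y) :
    (deflate U Y hY).ρ (g : G ⧸ U) y = Y.ρ g y := rfl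

/-- `infl (deflate Y) ≅ Y`. -/
noncomputable def inflDeflateIso (Y : Rep.{u} k G) (hY : ∀ u ∈ U, Y.ρ u = 1) :
    infl U (deflate U Y hY) ≅ Y where
  hom := Rep.ofHom (ρ := (infl U (deflate U Y hY)).ρ) (σ := Y.ρ)
    ⟨LinearMap.id, fun g => LinearMap.ext fun y => rfl⟩
  inv := Rep.ofHom (ρ := Y.ρ) (σ := (infl U (deflate U Y hY)).ρ)
    ⟨LinearMap.id, fun g => LinearMap.ext fun y => rfl⟩
  hom_inv_id := by
    refine Rep.hom_ext (Representation.IntertwiningMap.ext (LinearMap.ext fun y => ?_))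
    rfl
  inv_hom_id := by
    refine Rep.hom_ext (Representation.IntertwiningMap.ext (LinearMap.ext fun y => ?_))
    rfl

instance finiteDimensional_infl (N : Rep.{u} k (G ⧸ U)) [FiniteDimensional k N] :
    FiniteDimensional k (infl U N) := ‹FiniteDimensional k N›

instance finiteDimensional_deflate (Y : Rep.{u} k G) (hY : ∀ u ∈ U, Y.ρ u = 1)
    [FiniteDimensional k Y] : FiniteDimensional k (deflate U Y hY) := ‹FiniteDimensional k Y›

variable {U}
variable (𝒰 : LevelStructure G) (c : G) (hU : U ∈ 𝒰.sets)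

/-- The function `f` on the representations of the finite quotient `G ⧸ U`. -/
noncomputable def fQuot (N : Rep.{u} k (G ⧸ U)) : ℤ :=
  haveI := isDiscrete_infl hU N
  eulerF 𝒰 c (infl U N)

/-- `f` on `G ⧸ U` is isomorphism invariant. -/
theorem fQuot_iso {N N' : Rep.{u} k (G ⧸ U)} [FiniteDimensional k N] [FiniteDimensional k N']
    (e : N ≅ N') : fQuot 𝒰 c hU N = fQuot 𝒰 c hU N' := by
  have := isDiscrete_infl hU N
  have := isDiscrete_infl hU N'
  exact eulerF_iso 𝒰 c ((Rep.resFunctor (QuotientGroup.mk' U)).mapIso e)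

variable {𝒰 c}

open ShortComplex in
/-- **`f` on `G ⧸ U` is additive on short exact sequences.** -/
theorem fQuot_add {D : LocalData 𝒰} [DecidableEq D.ι] [Fintype D.ι] [Nonempty D.ι]
    {χ : G →* kˣ} [IsDiscrete 𝒰 (ofChar χ)] {tr : Hc D (ofChar χ) 3 →ₗ[k] k}
    (h : PTHyp D χ tr) (hfin : FiniteH1 (k := k) 𝒰) (hc : c * c = 1) (h2 : (2 : k) ≠ 0)
    {X : ShortComplex (Rep.{u} k (G ⧸ U))}
    [FiniteDimensional k X.X₁] [FiniteDimensional k X.X₂] [FiniteDimensional k X.X₃]
    (hX : X.ShortExact) :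
    fQuot 𝒰 c hU X.X₂ = fQuot 𝒰 c hU X.X₁ + fQuot 𝒰 c hU X.X₃ := by
  have : IsDiscrete 𝒰 (X.map (Rep.resFunctor (QuotientGroup.mk' U))).X₁ := isDiscrete_infl hU X.X₁
  have : IsDiscrete 𝒰 (X.map (Rep.resFunctor (QuotientGroup.mk' U))).X₂ := isDiscrete_infl hU X.X₂
  have : IsDiscrete 𝒰 (X.map (Rep.resFunctor (QuotientGroup.mk' U))).X₃ := isDiscrete_infl hU X.X₃
  have : FiniteDimensional k (X.map (Rep.resFunctor (QuotientGroup.mk' U))).X₁ :=
    ‹FiniteDimensional k X.X₁›
  have : FiniteDimensional k (X.map (Rep.resFunctor (QuotientGroup.mk' U))).X₂ :=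
    ‹FiniteDimensional k X.X₂›
  have : FiniteDimensional k (X.map (Rep.resFunctor (QuotientGroup.mk' U))).X₃ :=
    ‹FiniteDimensional k X.X₃›
  exact eulerF_add h hfin hc h2 (X := X.map (Rep.resFunctor (QuotientGroup.mk' U)))
    ((Rep.shortExact_res (QuotientGroup.mk' U)).2 hX)

variable (𝒰 c)

/-- The value of `f` on a representation on which `U` acts trivially. -/
theorem eulerF_eq_fQuot (Y : Rep.{u} k G) [IsDiscrete 𝒰 Y] [FiniteDimensional k Y]
    (hY : ∀ u ∈ U, Y.ρ u = 1) : eulerF 𝒰 c Y = fQuot 𝒰 c hU (deflate U Y hY) := by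
  have := isDiscrete_infl hU (deflate U Y hY)
  exact (eulerF_iso 𝒰 c (inflDeflateIso U Y hY)).symm

end Infl

/-! ### The instance `G_S` -/

section Global

open ShortComplex ExtCitation Fermat.Agent.S55.Assembly

local notation "Γ" => (AlgebraicClosure ℚ ≃ₐ[ℚ] AlgebraicClosure ℚ)

variable {p : ℕ} [Fact p.Prime] (S : Finset Nat.Primes)

theorem two_ne_zero_zmod (hp2 : p ≠ 2) : (2 : ZMod p) ≠ 0 := by
  intro h
  have h' : ((2 : ℕ) : ZMod p) = 0 := by exact_mod_cast h
  have hdvd : p ∣ 2 := (ZMod.natCast_eq_zero_iff 2 p).1 h'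
  exact hp2 ((Nat.prime_dvd_prime_iff_eq (Fact.out : p.Prime) Nat.prime_two).1 hdvd)

/-- **`f` is additive for `G_S`** (`p` odd, `p ∈ S`, `c` an involution). -/
theorem eulerF_add_global (hp2 : p ≠ 2) (hpS : pPrime p ∈ S) {c : Γ} (hc : c * c = 1)
    {X : ShortComplex (Rep (ZMod p) Γ)} [IsDiscrete (globalLevel S) X.X₁]
    [IsDiscrete (globalLevel S) X.X₂] [IsDiscrete (globalLevel S) X.X₃]
    [FiniteDimensional (ZMod p) X.X₁] [FiniteDimensional (ZMod p) X.X₂]
    [FiniteDimensional (ZMod p) X.X₃] (hX : X.ShortExact) :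
    eulerF (globalLevel S) c X.X₂ =
      eulerF (globalLevel S) c X.X₁ + eulerF (globalLevel S) c X.X₃ := by
  have hμ : IsDiscrete (globalLevel S) (ofChar (k := ZMod p) (cycloChar p)) :=
    isDiscrete_ofChar_cycloChar S hpS
  have hne : Nonempty (localData S).ι := Fermat.Agent.S55.Chain.nonempty_localData_ι S hpS
  obtain ⟨tr, h⟩ := Fermat.Agent.S56.PT.Instance.exists_tr_ptHyp S hp2 hpS
  exact eulerF_add h (finiteH1_global S hpS) hc (two_ne_zero_zmod hp2) hX

/-- **`f` on the representations of `Γ ⧸ U` is additive**, `U` a member of `globalLevel S`. -/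
theorem fQuot_add_global (hp2 : p ≠ 2) (hpS : pPrime p ∈ S) {c : Γ} (hc : c * c = 1)
    {U : Subgroup Γ} [U.Normal] (hU : U ∈ (globalLevel S).sets)
    {X : ShortComplex (Rep (ZMod p) (Γ ⧸ U))}
    [FiniteDimensional (ZMod p) X.X₁] [FiniteDimensional (ZMod p) X.X₂]
    [FiniteDimensional (ZMod p) X.X₃] (hX : X.ShortExact) :
    fQuot (globalLevel S) c hU X.X₂ =
      fQuot (globalLevel S) c hU X.X₁ + fQuot (globalLevel S) c hU X.X₃ := by
  have hμ : IsDiscrete (globalLevel S) (ofChar (k := ZMod p) (cycloChar p)) :=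
    isDiscrete_ofChar_cycloChar S hpS
  have hne : Nonempty (localData S).ι := Fermat.Agent.S55.Chain.nonempty_localData_ι S hpS
  obtain ⟨tr, h⟩ := Fermat.Agent.S56.PT.Instance.exists_tr_ptHyp S hp2 hpS
  exact fQuot_add hU h (finiteH1_global S hpS) hc (two_ne_zero_zmod hp2) hX

end Global

end Fermat.Agent.S56.GEC.Additive
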