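/-
S56 / GEC-D3 (helper11): the regular module `J_A = coind_U^G res_U A` (`U` a NORMAL subgroup) with
its commuting action of `G` (through `G ⧸ U`) by `G`-endomorphisms, and what it induces on level
cohomology.

* `leftTr U A τ : coindRes U A ⟶ coindRes U A`, `(L_τ f)(x) = τ • f (τ⁻¹ x)`; `leftTr_one`,
  `leftTr_mul`, `leftTr_of_mem` (trivial on `U`), naturality in `A`.
-/
import Fermat.Agent.S55.LevelConj
import Fermat.Agent.S55.LevelShapiroIncl
import Fermat.Agent.S55.CF.LESElem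
import Fermat.Agent.S55.DevissageRep
import Fermat.Agent.S55.LevelCores

set_option autoImplicit false
set_option linter.unusedSectionVars false
set_option linter.unusedVariables false

open CategoryTheory

namespace Fermat.Agent.S56.GEC.Regular

open Fermat.Agent.S55.Level Fermat.Agent.S55.CF Fermat.Agent.S55.Devissage

universe u

variable {k G : Type u} [CommRing k] [Group G]

section LeftTr

variable (U : Subgroup G) [hU : U.Normal] (A : Rep.{u} k G)

/-- The underlying function of `L_τ f`. -/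
def leftTrFun (τ : G) (f : G → A) : G → A := fun x => A.ρ τ (f (τ⁻¹ * x))

lemma leftTrFun_mem (τ : G) (f : coindRes U A) :
    leftTrFun A τ f.1 ∈ Representation.coindV U.subtype (Rep.res U.subtype A).ρ := by
  intro u x
  have hconj : τ⁻¹ * (u : G) * τ ∈ U := by
    have := hU.conj_mem (u : G) u.2 τ⁻¹
    simpa using this
  show A.ρ τ (f.1 (τ⁻¹ * ((u : G) * x))) = A.ρ (u : G) (A.ρ τ (f.1 (τ⁻¹ * x)))
  have h1 : τ⁻¹ * ((u : G) * x) = (τ⁻¹ * (u : G) * τ) * (τ⁻¹ * x) := by group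
  rw [h1, coindRes_apply_mul A f _ hconj, ← Module.End.mul_apply, ← Module.End.mul_apply,
    ← map_mul, ← map_mul]
  congr 2
  group

/-- **The commuting action**: `(L_τ f)(x) = τ • f (τ⁻¹ x)` on `coind_U^G res_U A`. -/
noncomputable def leftTr (τ : G) : coindRes U A ⟶ coindRes U A :=
  Rep.ofHom (ρ := (coindRes U A).ρ) (σ := (coindRes U A).ρ)
    ⟨{ toFun := fun f => ⟨leftTrFun A τ f.1, leftTrFun_mem U A τ f⟩
       map_add' := fun f f' => Subtype.ext (funext fun x => by
         show A.ρ τ ((f + f').1 (τ⁻¹ * x)) = A.ρ τ (f.1 (τ⁻¹ * x)) + A.ρ τ (f'.1 (τ⁻¹ * x))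
         rw [← map_add]; rfl)
       map_smul' := fun c f => Subtype.ext (funext fun x => by
         show A.ρ τ ((c • f).1 (τ⁻¹ * x)) = c • A.ρ τ (f.1 (τ⁻¹ * x))
         rw [← map_smul]; rfl) },
     fun g => by
       ext f x
       show A.ρ τ (f.1 (τ⁻¹ * x * g)) = A.ρ τ (f.1 (τ⁻¹ * (x * g)))
       rw [mul_assoc]⟩

lemma leftTr_apply (τ : G) (f : coindRes U A) (x : G) :
    ((leftTr U A τ).hom f).1 x = A.ρ τ (f.1 (τ⁻¹ * x)) := rfl

lemma leftTr_one : leftTr U A 1 = 𝟙 _ := by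
  refine Rep.hom_ext (Representation.IntertwiningMap.ext (LinearMap.ext fun f =>
    Subtype.ext (funext fun x => ?_)))
  show A.ρ 1 (f.1 (1⁻¹ * x)) = f.1 x
  rw [map_one, inv_one, one_mul]; rfl

lemma leftTr_mul (σ τ : G) : leftTr U A (σ * τ) = leftTr U A τ ≫ leftTr U A σ := by
  refine Rep.hom_ext (Representation.IntertwiningMap.ext (LinearMap.ext fun f =>
    Subtype.ext (funext fun x => ?_)))
  show A.ρ (σ * τ) (f.1 ((σ * τ)⁻¹ * x)) = A.ρ σ (A.ρ τ (f.1 (τ⁻¹ * (σ⁻¹ * x))))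
  rw [map_mul, mul_inv_rev, mul_assoc]; rfl

lemma leftTr_of_mem {u : G} (hu : u ∈ U) : leftTr U A u = 𝟙 _ := by
  refine Rep.hom_ext (Representation.IntertwiningMap.ext (LinearMap.ext fun f =>
    Subtype.ext (funext fun x => ?_)))
  show A.ρ u (f.1 (u⁻¹ * x)) = f.1 x
  rw [coindRes_apply_mul A f _ (U.inv_mem hu), ← Module.End.mul_apply, ← map_mul, mul_inv_cancel,
    map_one]; rfl

end LeftTr

/-! ### Shapiro's isomorphism is equivariant: `L_τ` corresponds to conjugation by `τ` -/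

section Shapiro

variable (𝒰 : LevelStructure G) (U : Subgroup G) [hU : U.Normal]

/-- Conjugation `u ↦ τ⁻¹ u τ` on the normal subgroup `U`. -/
def conjU (τ : G) : U →* U where
  toFun u := ⟨τ⁻¹ * (u : G) * τ, by
    have := hU.conj_mem (u : G) u.2 τ⁻¹
    simpa using this⟩
  map_one' := Subtype.ext (by simp)
  map_mul' u v := Subtype.ext (by
    show τ⁻¹ * ((u : G) * (v : G)) * τ = (τ⁻¹ * (u : G) * τ) * (τ⁻¹ * (v : G) * τ)
    group)

@[simp] lemma coe_conjU (τ : G) (u : U) : ((conjU U τ u : U) : G) = τ⁻¹ * (u : G) * τ := rfl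

lemma refines_conjU (τ : G) : (𝒰.restrict U).Refines (𝒰.restrict U) (conjU U τ) := by
  rintro _ ⟨V, hV, rfl⟩
  have hn := 𝒰.normal V hV
  refine ⟨_, ⟨V, hV, rfl⟩, fun u hu => ?_⟩
  show τ⁻¹ * (u : G) * τ ∈ V
  have := hn.conj_mem (u : G) hu τ⁻¹
  simpa using this

variable (A : Rep.{u} k G)

/-- The coefficient map `a ↦ τ • a : res_{conj τ} res_U A ⟶ res_U A`. -/
noncomputable def conjCoeff (τ : G) :
    Rep.res (conjU U τ) (Rep.res U.subtype A) ⟶ Rep.res U.subtype A :=
  Rep.ofHom (ρ := (Rep.res (conjU U τ) (Rep.res U.subtype A)).ρ) (σ := (Rep.res U.subtype A).ρ)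
    ⟨A.ρ τ, fun u => by
      ext a
      show A.ρ τ (A.ρ (τ⁻¹ * (u : G) * τ) a) = A.ρ (u : G) (A.ρ τ a)
      rw [← Module.End.mul_apply, ← Module.End.mul_apply, ← map_mul, ← map_mul]
      congr 2
      group⟩

lemma conjCoeff_hom_apply (τ : G) (a : A) : (conjCoeff U A τ).hom a = A.ρ τ a := rfl

variable [IsOpenSub 𝒰 U] [IsDiscrete 𝒰 A]

/-- **The conjugation action of `G` on `Hⁿ(U, A)`**: `(τ z)(u₁, …) = τ • z (τ⁻¹ u₁ τ, …)`. -/
noncomputable def conjH (τ : G) (n : ℕ) :
    levelCohomology (𝒰.restrict U) (Rep.res U.subtype A) n ⟶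
      levelCohomology (𝒰.restrict U) (Rep.res U.subtype A) n :=
  levelCohomologyMap (conjU U τ) (refines_conjU 𝒰 U τ) (conjCoeff U A τ) n

/-- `f ↦ τ • f (τ⁻¹)`, the composite of `L_τ` and evaluation at `1`. -/
noncomputable def evalTr (τ : G) : Rep.res U.subtype (coindRes U A) ⟶ Rep.res U.subtype A :=
  Rep.ofHom (ρ := (Rep.res U.subtype (coindRes U A)).ρ) (σ := (Rep.res U.subtype A).ρ)
    ⟨A.ρ τ ∘ₗ LinearMap.proj τ⁻¹ ∘ₗ
        ((Rep.res U.subtype A).ρ.coindV U.subtype).subtype, fun u => by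
      ext f
      show A.ρ τ (f.1 (τ⁻¹ * (u : G))) = A.ρ (u : G) (A.ρ τ (f.1 τ⁻¹))
      have hconj : τ⁻¹ * (u : G) * τ ∈ U := by
        have := hU.conj_mem (u : G) u.2 τ⁻¹
        simpa using this
      have h1 : τ⁻¹ * (u : G) = (τ⁻¹ * (u : G) * τ) * τ⁻¹ := by group
      rw [h1, coindRes_apply_mul A f _ hconj, ← Module.End.mul_apply, ← Module.End.mul_apply,
        ← map_mul, ← map_mul]
      congr 2
      group⟩

lemma evalTr_hom_apply (τ : G) (f : coindRes U A) : (evalTr U A τ).hom f = A.ρ τ (f.1 τ⁻¹) := rfl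

/-- `f ↦ τ • f 1`, as a morphism for the conjugated inclusion `u ↦ τ⁻¹ u τ`. -/
noncomputable def evalConj (τ : G) :
    Rep.res (U.subtype.comp (conjU U τ)) (coindRes U A) ⟶ Rep.res U.subtype A :=
  Rep.ofHom (ρ := (Rep.res (U.subtype.comp (conjU U τ)) (coindRes U A)).ρ)
    (σ := (Rep.res U.subtype A).ρ)
    ⟨A.ρ τ ∘ₗ LinearMap.proj 1 ∘ₗ
        ((Rep.res U.subtype A).ρ.coindV U.subtype).subtype, fun u => by
      ext f
      show A.ρ τ (f.1 (1 * (τ⁻¹ * (u : G) * τ))) = A.ρ (u : G) (A.ρ τ (f.1 1))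
      have hconj : τ⁻¹ * (u : G) * τ ∈ U := by
        have := hU.conj_mem (u : G) u.2 τ⁻¹
        simpa using this
      have h1 : 1 * (τ⁻¹ * (u : G) * τ) = (τ⁻¹ * (u : G) * τ) * 1 := by group
      rw [h1, coindRes_apply_mul A f _ hconj, ← Module.End.mul_apply, ← Module.End.mul_apply,
        ← map_mul, ← map_mul]
      congr 2
      group⟩

lemma evalConj_hom_apply (τ : G) (f : coindRes U A) : (evalConj U A τ).hom f = A.ρ τ (f.1 1) := rfl

omit [IsOpenSub 𝒰 U] in
lemma refines_subtype_conjU (τ : G) : (𝒰.restrict U).Refines 𝒰 (U.subtype.comp (conjU U τ)) := by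
  intro V hV
  have hn := 𝒰.normal V hV
  refine ⟨_, 𝒰.mem_restrict_sets U hV, fun u hu => ?_⟩
  show τ⁻¹ * (u : G) * τ ∈ V
  have := hn.conj_mem (u : G) hu τ⁻¹
  simpa using this

set_option maxHeartbeats 400000 in
/-- **Shapiro's isomorphism is `G`-equivariant**: under `levelSh : Hⁿ(G, coind_U^G res_U A) ≅
Hⁿ(U, A)` the action of `τ` through the endomorphism `L_τ` of the coefficients corresponds to the
conjugation action of `τ` on `Hⁿ(U, A)`. -/
theorem levelSh_leftTr (τ : G) (n : ℕ) :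
    Hmap 𝒰 (leftTr U A τ) n ≫ levelSh 𝒰 U (Rep.res U.subtype A) n =
      levelSh 𝒰 U (Rep.res U.subtype A) n ≫ conjH 𝒰 U A τ n := by
  have h1 : Hmap 𝒰 (leftTr U A τ) n ≫ levelSh 𝒰 U (Rep.res U.subtype A) n =
      levelCohomologyMap U.subtype (𝒰.restrict_refines U) (evalTr U A τ) n := by
    have e0 : Hmap 𝒰 (leftTr U A τ) n =
        levelCohomologyMap (MonoidHom.id G) 𝒰.refines_id (leftTr U A τ) n := rfl
    rw [e0]
    unfold levelSh
    refine levelCohomologyMap_comp_eq (𝒰 := 𝒰) (𝒱 := 𝒰) (𝒲 := 𝒰.restrict U)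
      (A := coindRes U A) (B := coindRes U A) (C := Rep.res U.subtype A)
      (MonoidHom.id G) 𝒰.refines_id (leftTr U A τ) U.subtype
      (𝒰.restrict_refines U) (Fermat.Agent.S55.GC.Shapiro.coindEval U (Rep.res U.subtype A))
      U.subtype (𝒰.restrict_refines U) (evalTr U A τ) ?_ ?_ n
    · intro x; rfl
    · intro f
      show A.ρ τ (f.1 (τ⁻¹ * 1)) = A.ρ τ (f.1 τ⁻¹)
      rw [mul_one]
  have h2 : levelSh 𝒰 U (Rep.res U.subtype A) n ≫ conjH 𝒰 U A τ n =
      levelCohomologyMap (U.subtype.comp (conjU U τ)) (refines_subtype_conjU 𝒰 U τ)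
        (evalConj U A τ) n := by
    unfold levelSh conjH
    refine levelCohomologyMap_comp_eq (𝒰 := 𝒰) (𝒱 := 𝒰.restrict U) (𝒲 := 𝒰.restrict U)
      (A := coindRes U A) (B := Rep.res U.subtype A) (C := Rep.res U.subtype A)
      U.subtype (𝒰.restrict_refines U)
      (Fermat.Agent.S55.GC.Shapiro.coindEval U (Rep.res U.subtype A)) (conjU U τ)
      (refines_conjU 𝒰 U τ) (conjCoeff U A τ) (U.subtype.comp (conjU U τ))
      (refines_subtype_conjU 𝒰 U τ) (evalConj U A τ) ?_ ?_ n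
    · intro x; rfl
    · intro f; rfl
  rw [h1, h2]
  refine levelCohomologyMap_eq_of_conj (𝒰 := 𝒰) (𝒲 := 𝒰.restrict U) (A := coindRes U A)
    (C := Rep.res U.subtype A) τ (U.subtype.comp (conjU U τ))
    (refines_subtype_conjU 𝒰 U τ) U.subtype (𝒰.restrict_refines U) (fun u => ?_)
    (evalConj U A τ) (evalTr U A τ) (fun f => ?_) n
  · show (u : G) = τ * (τ⁻¹ * (u : G) * τ) * τ⁻¹
    group
  · show A.ρ τ (f.1 τ⁻¹) = A.ρ τ (f.1 (1 * τ⁻¹))
    rw [one_mul]
end Shapiro

section Invariants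

variable (U : Subgroup G) [hU : U.Normal] (A : Rep.{u} k G)

/-- `τ ↦ L_τ` as a monoid homomorphism into the endomorphism ring of `coind_U^G res_U A`. -/
noncomputable def leftTrHom : G →* End (coindRes U A) where
  toFun := leftTr U A
  map_one' := leftTr_one U A
  map_mul' σ τ := by rw [End.mul_def]; exact leftTr_mul U A σ τ

lemma leftTrHom_apply (τ : G) : leftTrHom U A τ = leftTr U A τ := rfl

variable (V : Subgroup G)

/-- The inclusion `coind_V^G res_V A ↪ coind_U^G res_U A` for `U ≤ V`. -/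
noncomputable def inclVU (h : U ≤ V) : coindRes V A ⟶ coindRes U A :=
  Rep.ofHom (ρ := (coindRes V A).ρ) (σ := (coindRes U A).ρ)
    ⟨LinearMap.codRestrict _ (((Rep.res V.subtype A).ρ.coindV V.subtype).subtype) fun F u g =>
      F.2 ⟨(u : G), h u.2⟩ g, fun g => by
      ext F
      rfl⟩

variable {U V}

lemma inclVU_apply (h : U ≤ V) (F : coindRes V A) (x : G) : ((inclVU U A V h).hom F).1 x = F.1 x :=
  rfl

lemma inclVU_injective (h : U ≤ V) : Function.Injective (inclVU U A V h).hom := by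
  intro F F' hFF'
  apply Subtype.ext
  funext g
  exact congrArg (fun E : (coindRes U A).V => E.1 g) hFF'

/-- On the image of `coind_V`, `L_v` is the identity for `v ∈ V`. -/
lemma inclVU_leftTr (h : U ≤ V) {v : G} (hv : v ∈ V) :
    inclVU U A V h ≫ leftTr U A v = inclVU U A V h := by
  refine Rep.hom_ext (Representation.IntertwiningMap.ext (LinearMap.ext fun F =>
    Subtype.ext (funext fun x => ?_)))
  show A.ρ v (F.1 (v⁻¹ * x)) = F.1 x
  rw [coindRes_apply_mul A F _ (V.inv_mem hv), ← Module.End.mul_apply, ← map_mul, mul_inv_cancel,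
    map_one]; rfl


/-- `L` restricted to `V` descends to the finite quotient `V ⧸ U`. -/
noncomputable def leftTrQ : ↥V ⧸ U.subgroupOf V →* End (coindRes U A) :=
  QuotientGroup.lift (U.subgroupOf V) ((leftTrHom U A).comp V.subtype)
    (fun v hv => leftTr_of_mem U A (Subgroup.mem_subgroupOf.1 hv))

lemma leftTrQ_mk (v : V) : leftTrQ (U := U) (V := V) A (QuotientGroup.mk v) = leftTr U A (v : G) :=
  rfl

lemma exists_leftTrQ_eq (q : ↥V ⧸ U.subgroupOf V) :
    ∃ v ∈ V, leftTrQ (U := U) (V := V) A q = leftTr U A v := by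
  induction q using QuotientGroup.induction_on with | H v =>
  exact ⟨(v : G), v.2, rfl⟩

variable [Fintype (↥V ⧸ U.subgroupOf V)]

/-- The trace endomorphism `∑_{q ∈ V/U} L_q` of `coind_U^G res_U A`. -/
noncomputable def trVU : End (coindRes U A) := ∑ q : ↥V ⧸ U.subgroupOf V, leftTrQ (U := U) (V := V) A q

lemma leftTrQ_mul_trVU (q : ↥V ⧸ U.subgroupOf V) :
    leftTrQ (U := U) (V := V) A q * trVU (U := U) (V := V) A = trVU (U := U) (V := V) A := by
  unfold trVU
  rw [Finset.mul_sum]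
  simp_rw [← map_mul]
  exact Fintype.sum_bijective (fun x => q * x) (Group.mulLeft_bijective q) _ _ (fun _ => rfl)

lemma trVU_leftTr {v : G} (hv : v ∈ V) :
    trVU (U := U) (V := V) A ≫ leftTr U A v = trVU (U := U) (V := V) A :=
  leftTrQ_mul_trVU A (QuotientGroup.mk ⟨v, hv⟩)


lemma trVU_hom_apply_mul (f : coindRes U A) {v : G} (hv : v ∈ V) (x : G) :
    ((trVU (U := U) (V := V) A).hom f).1 (v * x) =
      A.ρ v (((trVU (U := U) (V := V) A).hom f).1 x) := by
  have h := congrArg (fun φ : coindRes U A ⟶ coindRes U A => (φ.hom f).1 (v * x))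
    (trVU_leftTr (U := U) (V := V) A hv)
  simp only at h
  rw [← h]
  show A.ρ v (((trVU (U := U) (V := V) A).hom f).1 (v⁻¹ * (v * x))) = _
  rw [inv_mul_cancel_left]

/-- The trace, as a morphism `coind_U^G res_U A ⟶ coind_V^G res_V A`. -/
noncomputable def trToV : coindRes U A ⟶ coindRes V A :=
  Rep.ofHom (ρ := (coindRes U A).ρ) (σ := (coindRes V A).ρ)
    ⟨LinearMap.codRestrict _
      ((((Rep.res U.subtype A).ρ.coindV U.subtype).subtype) ∘ₗ
        (trVU (U := U) (V := V) A).hom.toLinearMap) fun f v x =>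
        trVU_hom_apply_mul A f v.2 x, fun g => by
      ext f x
      have := congrArg (fun F : (coindRes U A).V => F.1 x)
        (LinearMap.congr_fun ((trVU (U := U) (V := V) A).hom.isIntertwining' g) f)
      exact this⟩

lemma trToV_apply (f : coindRes U A) (x : G) :
    ((trToV (U := U) (V := V) A).hom f).1 x = ((trVU (U := U) (V := V) A).hom f).1 x := rfl

lemma trToV_inclVU (h : U ≤ V) :
    trToV (U := U) (V := V) A ≫ inclVU U A V h = trVU (U := U) (V := V) A := by
  refine Rep.hom_ext (Representation.IntertwiningMap.ext (LinearMap.ext fun f =>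
    Subtype.ext (funext fun x => ?_)))
  rfl


lemma inclVU_trVU (h : U ≤ V) :
    inclVU U A V h ≫ trVU (U := U) (V := V) A =
      Fintype.card (↥V ⧸ U.subgroupOf V) • inclVU U A V h := by
  unfold trVU
  rw [Preadditive.comp_sum]
  have : ∀ q : ↥V ⧸ U.subgroupOf V,
      inclVU U A V h ≫ leftTrQ (U := U) (V := V) A q = inclVU U A V h := by
    intro q
    obtain ⟨v, hv, hq⟩ := exists_leftTrQ_eq (U := U) (V := V) A q
    rw [hq]
    exact inclVU_leftTr A h hv
  rw [Finset.sum_congr rfl fun q _ => this q, Finset.sum_const, Finset.card_univ]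

lemma inclVU_trToV (h : U ≤ V) :
    inclVU U A V h ≫ trToV (U := U) (V := V) A =
      Fintype.card (↥V ⧸ U.subgroupOf V) • 𝟙 (coindRes V A) := by
  refine Rep.hom_ext (Representation.IntertwiningMap.ext (LinearMap.ext fun F =>
    inclVU_injective A h ?_))
  have h1 := congrArg (fun φ : coindRes V A ⟶ coindRes U A => φ.hom F) (inclVU_trVU A h)
  have h2 : ((inclVU U A V h ≫ trToV (U := U) (V := V) A) ≫ inclVU U A V h).hom F =
      (inclVU U A V h ≫ trVU (U := U) (V := V) A).hom F := by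
    rw [Category.assoc, trToV_inclVU]
  refine h2.trans (h1.trans ?_)
  simp only [Rep.nsmul_hom]
  rfl


/-! ### The induced action on level cohomology -/

variable (𝒰 : LevelStructure G) [IsOpenSub 𝒰 U] [IsDiscrete 𝒰 A]

variable (U) in
/-- **The action of `G` (through `G ⧸ U`) on `Hⁿ(G, coind_U^G res_U A)`** by functoriality in the
coefficients. -/
noncomputable def cohRep (n : ℕ) : Representation k G (levelCohomology 𝒰 (coindRes U A) n) where
  toFun τ := (Hmap 𝒰 (leftTr U A τ) n).hom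
  map_one' := by rw [leftTr_one, Hmap_id]; rfl
  map_mul' σ τ := by rw [leftTr_mul, Hmap_comp]; rfl

lemma cohRep_apply (n : ℕ) (τ : G) (x : levelCohomology 𝒰 (coindRes U A) n) :
    cohRep U A 𝒰 n τ x = (Hmap 𝒰 (leftTr U A τ) n).hom x := rfl

lemma cohRep_of_mem (n : ℕ) {u : G} (hu : u ∈ U) : cohRep U A 𝒰 n u = 1 := by
  ext x
  rw [cohRep_apply, leftTr_of_mem U A hu, Hmap_id]
  rfl

lemma Hmap_finset_sum {B C : Rep.{u} k G} [IsDiscrete 𝒰 B] [IsDiscrete 𝒰 C] {ι : Type*}
    (s : Finset ι) (φ : ι → (B ⟶ C)) (n : ℕ) :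
    Hmap 𝒰 (∑ i ∈ s, φ i) n = ∑ i ∈ s, Hmap 𝒰 (φ i) n := by
  classical
  induction s using Finset.induction_on with
  | empty => simp only [Finset.sum_empty]; exact Hmap_zero 𝒰 n
  | insert a s ha ih => rw [Finset.sum_insert ha, Finset.sum_insert ha, Hmap_add, ih]

variable [IsOpenSub 𝒰 V]

/-- `Hⁿ(coind_V) ⟶ Hⁿ(coind_U)` is injective when `[V : U]` is invertible in `k`. -/
theorem Hmap_inclVU_injective (h : U ≤ V)
    (hm : IsUnit ((Fintype.card (↥V ⧸ U.subgroupOf V) : ℕ) : k)) (n : ℕ) :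
    Function.Injective (Hmap 𝒰 (inclVU U A V h) n).hom := by
  rw [injective_iff_map_eq_zero]
  intro y hy
  have h1 : (Hmap 𝒰 (inclVU U A V h ≫ trToV (U := U) (V := V) A) n).hom y = 0 := by
    rw [Hmap_comp_apply, hy, map_zero]
  rw [inclVU_trToV A h, Hmap_nsmul_id_apply, ← Nat.cast_smul_eq_nsmul k] at h1
  exact (hm.smul_eq_zero).1 h1

/-- **The image of `Hⁿ(coind_V) ⟶ Hⁿ(coind_U)` is the space of `V`-invariants** (for the action
`cohRep`) when `[V : U]` is invertible in `k`. -/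
theorem range_Hmap_inclVU (h : U ≤ V)
    (hm : IsUnit ((Fintype.card (↥V ⧸ U.subgroupOf V) : ℕ) : k)) (n : ℕ) :
    LinearMap.range (Hmap 𝒰 (inclVU U A V h) n).hom =
      Representation.invariants ((cohRep U A 𝒰 n).comp V.subtype) := by
  ext x
  rw [Representation.mem_invariants]
  constructor
  · rintro ⟨y, rfl⟩ v
    show (Hmap 𝒰 (leftTr U A (v : G)) n).hom ((Hmap 𝒰 (inclVU U A V h) n).hom y) = _
    rw [← Hmap_comp_apply, inclVU_leftTr A h v.2]
  · intro hx
    -- the trace of an invariant class is `m • x`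
    have h1 : (Hmap 𝒰 (trVU (U := U) (V := V) A) n).hom x =
        Fintype.card (↥V ⧸ U.subgroupOf V) • x := by
      unfold trVU
      rw [Hmap_finset_sum]
      have : ∀ q : ↥V ⧸ U.subgroupOf V,
          (Hmap 𝒰 (leftTrQ (U := U) (V := V) A q) n).hom x = x := by
        intro q
        induction q using QuotientGroup.induction_on with | H v =>
        exact hx v
      rw [ModuleCat.hom_sum, LinearMap.sum_apply, Finset.sum_congr rfl fun q _ => this q,
        Finset.sum_const, Finset.card_univ]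
    rw [← trToV_inclVU A h, Hmap_comp_apply, ← Nat.cast_smul_eq_nsmul k] at h1
    obtain ⟨c, hc⟩ := hm
    refine ⟨(↑c⁻¹ : k) • (Hmap 𝒰 (trToV (U := U) (V := V) A) n).hom x, ?_⟩
    show (Hmap 𝒰 (inclVU U A V h) n).hom _ = x
    rw [map_smul, h1, ← hc, smul_smul, Units.inv_mul, one_smul]

/-- **`dim Hⁿ(G, coind_V^G res_V A) = dim Hⁿ(G, coind_U^G res_U A)^V`** for `U ≤ V`, `U` normal,
`[V : U]` invertible in `k`. -/
theorem finrank_coindRes_eq_invariants (h : U ≤ V)
    (hm : IsUnit ((Fintype.card (↥V ⧸ U.subgroupOf V) : ℕ) : k)) (n : ℕ) :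
    Module.finrank k (levelCohomology 𝒰 (coindRes V A) n) =
      Module.finrank k (Representation.invariants ((cohRep U A 𝒰 n).comp V.subtype)) := by
  rw [← range_Hmap_inclVU A 𝒰 h hm n]
  exact (LinearMap.finrank_range_of_inj (Hmap_inclVU_injective A 𝒰 h hm n)).symm

end Invariants

end Fermat.Agent.S56.GEC.Regular
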