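/-
S56 / GEC-D3, part 2 (helper11): coefficients.  For a representation `Z` of `G` on which the normal
subgroup `U` acts trivially, `Hⁿ(G, coind_U^G res_U Z) ≅ Hⁿ(G, coind_U^G k) ⊗ Z`, compatibly with
the commuting actions of `G` (`L_τ` on the left, `L_τ ⊗ Z.ρ τ` on the right).
-/
import Fermat.Agent.S56.GEC.Regular

set_option autoImplicit false
set_option linter.unusedSectionVars false
set_option linter.unusedVariables false

open CategoryTheory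

namespace Fermat.Agent.S56.GEC.Regular

open Fermat.Agent.S55.Level Fermat.Agent.S55.CF Fermat.Agent.S55.Devissage

universe u

variable {k G : Type u} [CommRing k] [Group G]

section CoefMap

variable (U : Subgroup G) {A B C : Rep.{u} k G}

/-- The morphism `coind_U^G res_U A ⟶ coind_U^G res_U B`, `f ↦ ℓ ∘ f`, induced by a linear map
`ℓ : A → B` which is equivariant for `U` only. -/
noncomputable def coefMap (ℓ : A →ₗ[k] B)
    (hℓ : ∀ u ∈ U, ∀ a : A, ℓ (A.ρ u a) = B.ρ u (ℓ a)) : coindRes U A ⟶ coindRes U B :=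
  Rep.coindMap U.subtype (A := Rep.res U.subtype A) (B := Rep.res U.subtype B)
    (Rep.ofHom ⟨ℓ, fun u => LinearMap.ext fun a => hℓ u.1 u.2 a⟩)

theorem coefMap_apply (ℓ : A →ₗ[k] B)
    (hℓ : ∀ u ∈ U, ∀ a : A, ℓ (A.ρ u a) = B.ρ u (ℓ a)) (f : coindRes U A) (x : G) :
    ((coefMap U ℓ hℓ).hom f).1 x = ℓ (f.1 x) := rfl

theorem coefMap_comp (ℓ : A →ₗ[k] B) (hℓ : ∀ u ∈ U, ∀ a : A, ℓ (A.ρ u a) = B.ρ u (ℓ a))
    (ℓ' : B →ₗ[k] C) (hℓ' : ∀ u ∈ U, ∀ a : B, ℓ' (B.ρ u a) = C.ρ u (ℓ' a)) :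
    coefMap U ℓ hℓ ≫ coefMap U ℓ' hℓ' =
      coefMap U (ℓ' ∘ₗ ℓ) (fun u hu a => by
        rw [LinearMap.comp_apply, hℓ u hu, hℓ' u hu, LinearMap.comp_apply]) := by
  refine Rep.hom_ext (Representation.IntertwiningMap.ext (LinearMap.ext fun f =>
    Subtype.ext (funext fun x => ?_)))
  rfl

theorem coefMap_congr {ℓ ℓ' : A →ₗ[k] B} (h : ℓ = ℓ')
    (hℓ : ∀ u ∈ U, ∀ a : A, ℓ (A.ρ u a) = B.ρ u (ℓ a)) :
    coefMap U ℓ hℓ = coefMap U ℓ' (by subst h; exact hℓ) := by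
  subst h; rfl

variable [hU : U.Normal]

/-- Compatibility with the commuting action: if `τ ∘ ℓ = ℓ' ∘ τ` then
`L_τ ∘ (ℓ ∘ -) = (ℓ' ∘ -) ∘ L_τ`. -/
theorem coefMap_leftTr (τ : G) (ℓ ℓ' : A →ₗ[k] B)
    (hℓ : ∀ u ∈ U, ∀ a : A, ℓ (A.ρ u a) = B.ρ u (ℓ a))
    (hℓ' : ∀ u ∈ U, ∀ a : A, ℓ' (A.ρ u a) = B.ρ u (ℓ' a))
    (h : ∀ a : A, B.ρ τ (ℓ a) = ℓ' (A.ρ τ a)) :
    coefMap U ℓ hℓ ≫ leftTr U B τ = leftTr U A τ ≫ coefMap U ℓ' hℓ' := by
  refine Rep.hom_ext (Representation.IntertwiningMap.ext (LinearMap.ext fun f =>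
    Subtype.ext (funext fun x => ?_)))
  show B.ρ τ (ℓ (f.1 (τ⁻¹ * x))) = ℓ' (A.ρ τ (f.1 (τ⁻¹ * x)))
  exact h _

end CoefMap

section Smul

variable (𝒰 : LevelStructure G) {B C : Rep.{u} k G} [IsDiscrete 𝒰 B] [IsDiscrete 𝒰 C]

/-- Multiplication by a scalar on the coefficients induces multiplication by the scalar on level
cohomology. -/
lemma Hmap_smul_id_apply (c : k) (n : ℕ) (x : levelCohomology 𝒰 B n) :
    (Hmap 𝒰 (c • 𝟙 B) n).hom x = c • x := by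
  obtain ⟨z, rfl⟩ := levelπ_surjective 𝒰 B n x
  have h := levelCohomologyMap_levelπ (𝒰 := 𝒰) (𝒱 := 𝒰) (A := B) (B := B) (MonoidHom.id G)
    𝒰.refines_id (c • 𝟙 B) n z (c • z) (fun g => rfl)
  rw [map_smul] at h
  exact h

lemma Hmap_smul_apply (c : k) (φ : B ⟶ C) (n : ℕ) (x : levelCohomology 𝒰 B n) :
    (Hmap 𝒰 (c • φ) n).hom x = c • (Hmap 𝒰 φ n).hom x := by
  have : c • φ = φ ≫ (c • 𝟙 C) := by rw [Linear.comp_smul, Category.comp_id]
  rw [this, Hmap_comp_apply, Hmap_smul_id_apply]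

lemma Hmap_add_apply (φ ψ : B ⟶ C) (n : ℕ) (x : levelCohomology 𝒰 B n) :
    (Hmap 𝒰 (φ + ψ) n).hom x = (Hmap 𝒰 φ n).hom x + (Hmap 𝒰 ψ n).hom x := by
  rw [Hmap_add]; rfl

end Smul

section Tensor

variable (U : Subgroup G) (Z : Rep.{u} k G) (hZ : ∀ u ∈ U, ∀ z : Z, Z.ρ u z = z)

/-- `f ↦ f • z : coind_U^G k ⟶ coind_U^G res_U Z`. -/
noncomputable def insZ (z : Z) : coindRes U (Rep.trivial k G k) ⟶ coindRes U Z :=
  coefMap U (A := Rep.trivial k G k) (B := Z) (LinearMap.toSpanSingleton k Z z)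
    (fun u hu a => (hZ u hu (LinearMap.toSpanSingleton k Z z a)).symm)

/-- `F ↦ ξ ∘ F : coind_U^G res_U Z ⟶ coind_U^G k` for a linear form `ξ`. -/
noncomputable def prZ (ξ : Z →ₗ[k] k) : coindRes U Z ⟶ coindRes U (Rep.trivial k G k) :=
  coefMap U (A := Z) (B := Rep.trivial k G k) ξ (fun u hu a => congrArg ξ (hZ u hu a))

lemma insZ_apply (z : Z) (f : coindRes U (Rep.trivial k G k)) (x : G) :
    ((insZ U Z hZ z).hom f).1 x = (f.1 x : k) • z := rfl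

lemma prZ_apply (ξ : Z →ₗ[k] k) (F : coindRes U Z) (x : G) :
    ((prZ U Z hZ ξ).hom F).1 x = ξ (F.1 x) := rfl

lemma insZ_add (z z' : Z) : insZ U Z hZ (z + z') = insZ U Z hZ z + insZ U Z hZ z' := by
  refine Rep.hom_ext (Representation.IntertwiningMap.ext (LinearMap.ext fun f =>
    Subtype.ext (funext fun x => ?_)))
  show (f.1 x : k) • (z + z') = (f.1 x : k) • z + (f.1 x : k) • z'
  rw [smul_add]

lemma insZ_smul (c : k) (z : Z) : insZ U Z hZ (c • z) = c • insZ U Z hZ z := by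
  refine Rep.hom_ext (Representation.IntertwiningMap.ext (LinearMap.ext fun f =>
    Subtype.ext (funext fun x => ?_)))
  show (f.1 x : k) • (c • z) = c • ((f.1 x : k) • z)
  rw [smul_comm]

lemma insZ_prZ (z : Z) (ξ : Z →ₗ[k] k) :
    insZ U Z hZ z ≫ prZ U Z hZ ξ = ξ z • 𝟙 (coindRes U (Rep.trivial k G k)) := by
  refine Rep.hom_ext (Representation.IntertwiningMap.ext (LinearMap.ext fun f =>
    Subtype.ext (funext fun x => ?_)))
  show ξ ((f.1 x : k) • z) = ξ z • (f.1 x : k)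
  rw [map_smul, smul_eq_mul, smul_eq_mul, mul_comm]

lemma sum_prZ_insZ {ι : Type} [Fintype ι] (b : Module.Basis ι k Z) :
    ∑ j, prZ U Z hZ (b.coord j) ≫ insZ U Z hZ (b j) = 𝟙 (coindRes U Z) := by
  refine Rep.hom_ext (Representation.IntertwiningMap.ext (LinearMap.ext fun f =>
    Subtype.ext (funext fun x => ?_)))
  rw [Rep.sum_hom, Representation.IntertwiningMap.toLinearMap_sum, LinearMap.sum_apply,
    Submodule.coe_sum, Finset.sum_apply]
  show ∑ j, (b.coord j (f.1 x)) • b j = f.1 x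
  exact b.sum_repr (f.1 x)

end Tensor

end Fermat.Agent.S56.GEC.Regular
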