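/-
S56 / GEC-D5 (helper4), generic step of the final assembly: THE FUNCTION
`f = h⁰ − h¹ + h² + dim (·)^{c = −1}` VANISHES ON `coind_V^G res_V Z` as soon as the equivariant
count holds for the finite quotient `V ⧸ U`.

`U ⊴ G`, `U ≤ V ≤ G`, `C := V ⧸ U` finite of order invertible in `k`, `c : G`, `χ : G →* kˣ` trivial on
`U` with `χ c = −1`, `W := U ⊔ ⟨c⟩`, `Z` a finite-dimensional representation of `G` trivial on `U`.

* `quotPerm`, `quotMulAction` : the action of `C` on `G ⧸ W` (left translation through lifts);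
* `quotCharInv` : the character `mk v ↦ χ(v)⁻¹` of `C`;
* `mult_minusRepQ` : `mult N (coind_U^G 𝟙)^{c=−1} = mult N (k[G/W] ⊗ χ⁻¹)` over `C`
  (helper13's `MinusRegular.mult_of_lifts` for `RegularRep.minusRepQ`);
* **`eulerF_coindRes_eq_zero`** : if
  `mult Z A⁰ + mult Z A² + mult Z (k[G/W] ⊗ χ⁻¹) = mult Z A¹` (`Aⁿ = Hⁿ(G, coind_U^G 𝟙)`, the statement
  of D4 for `ρN = Z`), then `f(coind_V^G res_V Z) = 0` — by (r4), (r5) of `RegularRep`.
-/
import Mathlib
import Fermat.Agent.S56.GEC.Additive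
import Fermat.Agent.S56.GEC.Regular
import Fermat.Agent.S56.GEC.Equivariant.Mult
import Fermat.Agent.S56.GEC.Equivariant.RegularRep
import Fermat.Agent.S56.GEC.Equivariant.MinusRegular

set_option autoImplicit false
set_option linter.unusedSectionVars false
set_option linter.style.haveILetI false

namespace Fermat.Agent.S56.GEC.EulerCoind

open CategoryTheory Module Fermat.Agent.S55.Level Fermat.Agent.S55.LevelDuality
  Fermat.Agent.S55.Devissage Fermat.Agent.S56.GEC.Additive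
  Fermat.Agent.S56.GEC.Regular Fermat.Agent.S56.GEC.Equivariant.Mult
  Fermat.Agent.S56.GEC.Equivariant.RegularRep Fermat.Agent.S56.GEC.Equivariant.MinusRegular

universe u

variable {k G : Type u} [Field k] [Group G]
variable (U V : Subgroup G) [hU : U.Normal]

/-- Left translation by an element of the normal subgroup `U ≤ W` is trivial on `G ⧸ W`. -/
theorem smul_mk_of_mem (W : Subgroup G) (hUW : U ≤ W) {u : G} (hu : u ∈ U) (q : G ⧸ W) :
    u • q = q := by
  induction q using QuotientGroup.induction_on with | H x =>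
  show ((u * x : G) : G ⧸ W) = (x : G ⧸ W)
  rw [QuotientGroup.eq]
  have h1 : (u * x)⁻¹ * x = x⁻¹ * u⁻¹ * x := by group
  rw [h1]
  have h2 : x⁻¹ * u⁻¹ * x ∈ U := by
    have := hU.conj_mem u⁻¹ (U.inv_mem hu) x⁻¹
    simpa using this
  exact hUW h2

/-- The permutation action of `V ⧸ U` on `G ⧸ W`, `U ≤ W`: `mk v` acts as left translation by
`v`. -/
noncomputable def quotPerm (W : Subgroup G) (hUW : U ≤ W) :
    (↥V ⧸ U.subgroupOf V) →* Equiv.Perm (G ⧸ W) :=
  QuotientGroup.lift (U.subgroupOf V) ((MulAction.toPermHom G (G ⧸ W)).comp V.subtype)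
    (fun _ hv => Equiv.ext fun q =>
      smul_mk_of_mem U W hUW (Subgroup.mem_subgroupOf.1 hv) q)

/-- `G ⧸ W` as a `V ⧸ U`-set. -/
@[reducible] noncomputable def quotMulAction (W : Subgroup G) (hUW : U ≤ W) :
    MulAction (↥V ⧸ U.subgroupOf V) (G ⧸ W) :=
  MulAction.compHom (G ⧸ W) (quotPerm U V W hUW)

theorem quotMulAction_mk_smul (W : Subgroup G) (hUW : U ≤ W) (v : V) (q : G ⧸ W) :
    letI := quotMulAction U V W hUW
    ((QuotientGroup.mk v : ↥V ⧸ U.subgroupOf V) • q) = (v : G) • q := rfl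

/-- The character `mk v ↦ χ(v)⁻¹` of `V ⧸ U`, for `χ` trivial on `U`. -/
noncomputable def quotCharInv (χ : G →* kˣ) (hχU : ∀ u ∈ U, χ u = 1) :
    (↥V ⧸ U.subgroupOf V) →* kˣ :=
  QuotientGroup.lift (U.subgroupOf V) ((χ⁻¹).comp V.subtype)
    (fun v hv => by
      rw [MonoidHom.mem_ker, MonoidHom.comp_apply, MonoidHom.inv_apply, Subgroup.coe_subtype,
        hχU _ (Subgroup.mem_subgroupOf.1 hv), inv_one])

theorem quotCharInv_mk (χ : G →* kˣ) (hχU : ∀ u ∈ U, χ u = 1) (v : V) :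
    quotCharInv U V χ hχU (QuotientGroup.mk v) = (χ (v : G))⁻¹ := rfl

/-- **(r5), second half**: over `C = V ⧸ U`, the `(−1)`-eigenspace of `c` on `coind_U^G 𝟙` has the
multiplicities of the permutation module of `G ⧸ (U ⊔ ⟨c⟩)` twisted by `χ⁻¹`. -/
theorem mult_minusRepQ (c : G) (χ : G →* kˣ) (hχU : ∀ u ∈ U, χ u = 1) (hχc : χ c = -1)
    [Finite (G ⧸ W U c)] {N : Type*} [AddCommGroup N] [Module k N]
    (ρN : Representation k (↥V ⧸ U.subgroupOf V) N) :
    letI := quotMulAction U V (W U c) le_sup_left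
    mult ρN (minusRepQ (k := k) U V c) =
      mult ρN (twist (permRep k (↥V ⧸ U.subgroupOf V) (G ⧸ W U c)) (quotCharInv U V χ hχU)) := by
  letI := quotMulAction U V (W U c) le_sup_left
  refine mult_of_lifts U c χ hχU hχc (minusRepQ (k := k) U V c) (quotCharInv U V χ hχU)
    (fun a => ?_) ρN
  induction a using QuotientGroup.induction_on with | H v =>
  exact ⟨(v : G), rfl, fun q => rfl, rfl⟩

variable {U V}
variable (𝒰 : LevelStructure G) [Fintype (↥V ⧸ U.subgroupOf V)]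
  (Z : Rep.{u} k G) [FiniteDimensional k Z] (hZ : ∀ u ∈ U, ∀ z : Z, Z.ρ u z = z)
  [IsDiscrete 𝒰 (coindRes U (Rep.trivial k G k))] [IsDiscrete 𝒰 (coindRes U Z)]
  [IsDiscrete 𝒰 (coindRes V Z)]

/-- **The Euler function vanishes on `coind_V^G res_V Z`** as soon as the equivariant count (D4) holds
for the representation `Z` of `V ⧸ U`. -/
theorem eulerF_coindRes_eq_zero (hUV : U ≤ V)
    (hm : (Fintype.card (↥V ⧸ U.subgroupOf V) : k) ≠ 0)
    (c : G) (χ : G →* kˣ) (hχU : ∀ u ∈ U, χ u = 1) (hχc : χ c = -1) [Finite (G ⧸ W U c)]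
    (hcount :
      letI := quotMulAction U V (W U c) le_sup_left
      mult (quotRep U V Z hZ) (cohRepQ U V 𝒰 (Rep.trivial k G k) 0) +
        mult (quotRep U V Z hZ) (cohRepQ U V 𝒰 (Rep.trivial k G k) 2) +
        mult (quotRep U V Z hZ)
          (twist (permRep k (↥V ⧸ U.subgroupOf V) (G ⧸ W U c)) (quotCharInv U V χ hχU)) =
      mult (quotRep U V Z hZ) (cohRepQ U V 𝒰 (Rep.trivial k G k) 1)) :
    eulerF 𝒰 c (coindRes V Z) = 0 := by
  unfold eulerF
  rw [finrank_coindRes_eq_mult 𝒰 Z hZ hUV hm 0, finrank_coindRes_eq_mult 𝒰 Z hZ hUV hm 1,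
    finrank_coindRes_eq_mult 𝒰 Z hZ hUV hm 2, finrank_minusPart_coindRes_eq_mult Z hZ hUV c hm,
    mult_minusRepQ U V c χ hχU hχc (quotRep U V Z hZ)]
  have h := hcount
  omega

end Fermat.Agent.S56.GEC.EulerCoind
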