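/-
S56, GEC (D5 seam): existence of a *good field* trivialising a finite-dimensional discrete
representation.

For `p ∈ S` and `Y : Rep k Γ` finitely generated over `k` and discrete for `globalLevel S` (any
commutative ring `k`, `Y : Rep.{0} k Γ`), there is a finite normal extension `L ⊂ Q̄` of `ℚ`,
unramified outside `S`, containing `μ_p`, such that `G_L = L.fixingSubgroup` is a member of
`globalLevel S`, acts trivially on `Y` and lies in the kernel of the mod `p` cyclotomic character.
This is the choice of `L` at the start of the proof of the global Euler characteristic formula.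

Everything is a combination of three S55 lemmas: `Devissage.exists_trivializing_level`,
`LevelGlobal.ker_cycloChar_mem_globalLevel` and `GL.Kummer.exists_goodField_of_mem`.
-/
import Mathlib
import Fermat.Agent.S55.GL.KummerDim

set_option autoImplicit false

open ExtCitation
open Fermat.Agent.S55.Level Fermat.Agent.S55.LevelGlobal

namespace Fermat.Agent.S56.GEC.GoodField

local notation "Qbar" => AlgebraicClosure ℚ
local notation "Γ" => (AlgebraicClosure ℚ ≃ₐ[ℚ] AlgebraicClosure ℚ)

variable {S : Finset Nat.Primes} {p : ℕ} [hpF : Fact p.Prime]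

/-- A member `U` of `globalLevel S` inside any given member `U₀`, contained in the kernel of the
cyclotomic character and acting trivially on the finitely generated discrete representation `Y`. -/
theorem exists_level_trivializing (hpS : (⟨p, hpF.out⟩ : Nat.Primes) ∈ S)
    {k : Type} [CommRing k] (Y : Rep.{0} k Γ) [IsDiscrete (globalLevel S) Y] [Module.Finite k Y]
    {U₀ : Subgroup Γ} (hU₀ : U₀ ∈ (globalLevel S).sets) :
    ∃ U ∈ (globalLevel S).sets, U ≤ U₀ ∧ (∀ u ∈ U, cycloChar p u = 1) ∧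
      ∀ u ∈ U, ∀ y : Y, Y.ρ u y = y := by
  obtain ⟨V, hV, hVle⟩ :=
    (globalLevel S).directed _ (ker_cycloChar_mem_globalLevel (S := S) p hpS) _ hU₀
  obtain ⟨U, hU, hUV, htriv⟩ := Fermat.Agent.S55.Devissage.exists_trivializing_level
    (𝒰 := globalLevel S) Y hV
  exact ⟨U, hU, hUV.trans (hVle.trans inf_le_right),
    fun u hu => MonoidHom.mem_ker.1 ((hUV.trans (hVle.trans inf_le_left)) hu), htriv⟩

/-- **Existence of a good field**: a number field `L ⊂ Q̄`, normal over `ℚ`, unramified outside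
`S`, containing the `p`-th roots of unity, with `G_L ∈ globalLevel S` inside a given member `U₀`
and acting trivially on `Y`. -/
theorem exists_goodField_trivializing (hpS : (⟨p, hpF.out⟩ : Nat.Primes) ∈ S)
    {k : Type} [CommRing k] (Y : Rep.{0} k Γ) [IsDiscrete (globalLevel S) Y] [Module.Finite k Y]
    {U₀ : Subgroup Γ} (hU₀ : U₀ ∈ (globalLevel S).sets) :
    ∃ L : IntermediateField ℚ Qbar, NumberField L ∧ L.IsUnramifiedOutside S ∧ Normal ℚ L ∧
      (∀ ω : Qbar, ω ^ p = 1 → ω ∈ L) ∧ L.fixingSubgroup ∈ (globalLevel S).sets ∧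
      L.fixingSubgroup ≤ U₀ ∧ (∀ u ∈ L.fixingSubgroup, cycloChar p u = 1) ∧
      ∀ u ∈ L.fixingSubgroup, ∀ y : Y, Y.ρ u y = y := by
  obtain ⟨U, hU, hUU₀, hχ, htriv⟩ := exists_level_trivializing (S := S) hpS Y hU₀
  obtain ⟨L, rfl, hL, hnorm, hμ⟩ := Fermat.Agent.S55.GL.Kummer.exists_goodField_of_mem hU hχ
  have hfd : FiniteDimensional ℚ L := hL.1
  exact ⟨L, { to_charZero := inferInstance, to_finiteDimensional := hfd }, hL, hnorm, hμ, hU,
    hUU₀, hχ, htriv⟩

/-- Two finitely generated discrete representations at once (e.g. `Y` and its Tate dual). -/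
theorem exists_goodField_trivializing₂ (hpS : (⟨p, hpF.out⟩ : Nat.Primes) ∈ S)
    {k : Type} [CommRing k] (Y Y' : Rep.{0} k Γ)
    [IsDiscrete (globalLevel S) Y] [Module.Finite k Y]
    [IsDiscrete (globalLevel S) Y'] [Module.Finite k Y']
    {U₀ : Subgroup Γ} (hU₀ : U₀ ∈ (globalLevel S).sets) :
    ∃ L : IntermediateField ℚ Qbar, NumberField L ∧ L.IsUnramifiedOutside S ∧ Normal ℚ L ∧
      (∀ ω : Qbar, ω ^ p = 1 → ω ∈ L) ∧ L.fixingSubgroup ∈ (globalLevel S).sets ∧
      L.fixingSubgroup ≤ U₀ ∧ (∀ u ∈ L.fixingSubgroup, cycloChar p u = 1) ∧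
      (∀ u ∈ L.fixingSubgroup, ∀ y : Y, Y.ρ u y = y) ∧
      ∀ u ∈ L.fixingSubgroup, ∀ y : Y', Y'.ρ u y = y := by
  obtain ⟨U, hU, hUU₀, -, htriv⟩ := exists_level_trivializing (S := S) hpS Y hU₀
  obtain ⟨L, hNF, hL, hnorm, hμ, hmem, hle, hχ, htriv'⟩ :=
    exists_goodField_trivializing (S := S) hpS Y' hU
  exact ⟨L, hNF, hL, hnorm, hμ, hmem, hle.trans hUU₀, hχ,
    fun u hu y => htriv u (hle hu) y, htriv'⟩

end Fermat.Agent.S56.GEC.GoodField
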