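/-
S56 / GEC-D5 seam (helper11, for helper4's `GEC/Main.lean`): inflation commutes with coinduction.

`U ⊴ G`, `C ≤ G ⧸ U`, `V := C.comap (mk' U)` (so `U ≤ V ≤ G`), `Z : Rep k (G ⧸ U)`:

* `inflCoindIso U C Z : infl U (coindRes C Z) ≅ coindRes V (infl U Z)`, `f ↦ f ∘ mk`;
* `le_comap : U ≤ V`, `quotComapEquiv U C : ↥V ⧸ U.subgroupOf V ≃* ↥C`;
* `isDiscrete_coindRes_of_le`: `coindRes V A` is discrete as soon as some member `U ≤ V` of the level
  structure exists.
-/
import Mathlib
import Fermat.Agent.S56.GEC.Additive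
import Fermat.Agent.S56.GEC.Regular

set_option autoImplicit false
set_option linter.unusedSectionVars false
set_option linter.unusedVariables false

open CategoryTheory

namespace Fermat.Agent.S56.GEC.InflCoind

open Fermat.Agent.S55.Level Fermat.Agent.S55.Devissage Fermat.Agent.S56.GEC.Additive
  Fermat.Agent.S56.GEC.Regular

universe u

section Discrete

variable {k G : Type u} [CommRing k] [Group G]

variable {𝒰 : LevelStructure G} {U V : Subgroup G} (A : Rep.{u} k G)

/-- `coind_V^G res_V A` is discrete as soon as `V` contains a member of the level structure. -/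
theorem isDiscrete_coindRes_of_le (hU : U ∈ 𝒰.sets) (hUV : U ≤ V) [IsDiscrete 𝒰 A] :
    IsDiscrete 𝒰 (coindRes V A) := by
  have := 𝒰.normal U hU
  have := isDiscrete_coindRes (𝒰 := 𝒰) A hU
  exact isDiscrete_of_injective (inclVU U A V hUV) (inclVU_injective A hUV)

end Discrete

section Group

variable {G : Type u} [Group G] (U : Subgroup G) [U.Normal] (C : Subgroup (G ⧸ U))

/-- `U ≤ V := C.comap mk`. -/
theorem le_comap : U ≤ C.comap (QuotientGroup.mk' U) := fun u hu => by
  rw [Subgroup.mem_comap, QuotientGroup.mk'_apply, (QuotientGroup.eq_one_iff u).2 hu]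
  exact C.one_mem

theorem mem_comap_iff (g : G) : g ∈ C.comap (QuotientGroup.mk' U) ↔ (g : G ⧸ U) ∈ C := Iff.rfl

/-- The projection `V → C`. -/
def toC : ↥(C.comap (QuotientGroup.mk' U)) →* ↥C := (QuotientGroup.mk' U).subgroupComap C

theorem toC_apply (v : ↥(C.comap (QuotientGroup.mk' U))) :
    ((toC U C v : ↥C) : G ⧸ U) = ((v : G) : G ⧸ U) := rfl

theorem toC_surjective : Function.Surjective (toC U C) :=
  (QuotientGroup.mk' U).subgroupComap_surjective_of_surjective C (QuotientGroup.mk'_surjective U)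

theorem ker_toC : (toC U C).ker = U.subgroupOf (C.comap (QuotientGroup.mk' U)) := by
  ext v
  rw [MonoidHom.mem_ker, Subgroup.mem_subgroupOf, ← QuotientGroup.eq_one_iff (v : G)]
  constructor
  · intro h
    have := congrArg (fun c : ↥C => (c : G ⧸ U)) h
    exact this
  · intro h
    exact Subtype.ext h

/-- **`V / U ≃* C`** for `V = C.comap mk`. -/
noncomputable def quotComapEquiv :
    ↥(C.comap (QuotientGroup.mk' U)) ⧸ U.subgroupOf (C.comap (QuotientGroup.mk' U)) ≃* ↥C :=
  (QuotientGroup.quotientMulEquivOfEq (ker_toC U C).symm).trans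
    (QuotientGroup.quotientKerEquivOfSurjective (toC U C) (toC_surjective U C))

theorem quotComapEquiv_mk (v : ↥(C.comap (QuotientGroup.mk' U))) :
    ((quotComapEquiv U C (QuotientGroup.mk v) : ↥C) : G ⧸ U) = ((v : G) : G ⧸ U) := rfl

theorem card_quot_comap :
    Nat.card (↥(C.comap (QuotientGroup.mk' U)) ⧸ U.subgroupOf (C.comap (QuotientGroup.mk' U))) =
      Nat.card C :=
  Nat.card_congr (quotComapEquiv U C).toEquiv

end Group

section Iso

variable {k G : Type u} [Field k] [Group G] (U : Subgroup G) [U.Normal] (C : Subgroup (G ⧸ U))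
  (Z : Rep.{u} k (G ⧸ U))

/-- Elements of `coind_V^G res_V (infl Z)` are constant on the cosets of `U`. -/
theorem coindRes_infl_apply_eq (F : coindRes (C.comap (QuotientGroup.mk' U)) (infl U Z))
    {x y : G} (h : (x : G ⧸ U) = (y : G ⧸ U)) : F.1 x = F.1 y := by
  have hu : y * x⁻¹ ∈ U := by
    rw [← QuotientGroup.eq_one_iff, QuotientGroup.mk_mul, QuotientGroup.mk_inv, h, mul_inv_cancel]
  have hv : y * x⁻¹ ∈ C.comap (QuotientGroup.mk' U) := le_comap U C hu
  have h1 := coindRes_apply_mul (infl U Z) F (y * x⁻¹) hv x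
  rw [inv_mul_cancel_right] at h1
  rw [h1, infl_ρ_apply, (QuotientGroup.eq_one_iff _).2 hu, map_one]
  rfl

/-- `f ↦ f ∘ mk`. -/
noncomputable def inflCoindHom :
    infl U (coindRes C Z) ⟶ coindRes (C.comap (QuotientGroup.mk' U)) (infl U Z) :=
  Rep.ofHom (ρ := (infl U (coindRes C Z)).ρ)
    (σ := (coindRes (C.comap (QuotientGroup.mk' U)) (infl U Z)).ρ)
    ⟨LinearMap.codRestrict _
      (LinearMap.funLeft k Z (QuotientGroup.mk : G → G ⧸ U) ∘ₗ
        ((Rep.res C.subtype Z).ρ.coindV C.subtype).subtype) fun f v x => by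
        show f.1 (((v : G) * x : G) : G ⧸ U) = Z.ρ ((v : G) : G ⧸ U) (f.1 (x : G ⧸ U))
        rw [QuotientGroup.mk_mul]
        exact coindRes_apply_mul Z f _ v.2 _, fun g => by
      ext f x
      rfl⟩

theorem inflCoindHom_apply (f : coindRes C Z) (x : G) :
    ((inflCoindHom U C Z).hom f).1 x = f.1 (x : G ⧸ U) := rfl

/-- `F ↦ (q ↦ F q.out)`. -/
noncomputable def inflCoindInv :
    coindRes (C.comap (QuotientGroup.mk' U)) (infl U Z) ⟶ infl U (coindRes C Z) :=
  Rep.ofHom (ρ := (coindRes (C.comap (QuotientGroup.mk' U)) (infl U Z)).ρ)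
    (σ := (infl U (coindRes C Z)).ρ)
    ⟨LinearMap.codRestrict _
      (LinearMap.funLeft k Z (Quotient.out : G ⧸ U → G) ∘ₗ
        ((Rep.res (C.comap (QuotientGroup.mk' U)).subtype (infl U Z)).ρ.coindV
          (C.comap (QuotientGroup.mk' U)).subtype).subtype) fun F c q => by
        show F.1 (((c : G ⧸ U) * q).out) = Z.ρ (c : G ⧸ U) (F.1 q.out)
        have hc : (c : G ⧸ U).out ∈ C.comap (QuotientGroup.mk' U) := by
          rw [mem_comap_iff, QuotientGroup.out_eq']; exact c.2
        have h1 : F.1 (((c : G ⧸ U) * q).out) = F.1 ((c : G ⧸ U).out * q.out) :=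
          coindRes_infl_apply_eq U C Z F (by
            rw [QuotientGroup.out_eq', QuotientGroup.mk_mul, QuotientGroup.out_eq',
              QuotientGroup.out_eq'])
        rw [h1, coindRes_apply_mul (infl U Z) F _ hc, infl_ρ_apply, QuotientGroup.out_eq'],
      fun g => by
      ext F q
      show F.1 (q.out * g) = F.1 ((q * (g : G ⧸ U)).out)
      exact coindRes_infl_apply_eq U C Z F (by
        rw [QuotientGroup.out_eq', QuotientGroup.mk_mul, QuotientGroup.out_eq'])⟩

theorem inflCoindInv_apply (F : coindRes (C.comap (QuotientGroup.mk' U)) (infl U Z))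
    (q : G ⧸ U) : ((inflCoindInv U C Z).hom F).1 q = F.1 q.out := rfl

/-- **Inflation commutes with coinduction**:
`infl U (coind_C^{G/U} res_C Z) ≅ coind_V^G res_V (infl U Z)`, `V = C.comap mk`. -/
noncomputable def inflCoindIso :
    infl U (coindRes C Z) ≅ coindRes (C.comap (QuotientGroup.mk' U)) (infl U Z) where
  hom := inflCoindHom U C Z
  inv := inflCoindInv U C Z
  hom_inv_id := by
    refine Rep.hom_ext (Representation.IntertwiningMap.ext (LinearMap.ext fun f =>
      Subtype.ext (funext fun q => ?_)))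
    show f.1 ((q.out : G) : G ⧸ U) = f.1 q
    rw [QuotientGroup.out_eq']
  inv_hom_id := by
    refine Rep.hom_ext (Representation.IntertwiningMap.ext (LinearMap.ext fun F =>
      Subtype.ext (funext fun x => ?_)))
    show F.1 ((x : G ⧸ U).out) = F.1 x
    exact coindRes_infl_apply_eq U C Z F (QuotientGroup.out_eq' _)

end Iso

end Fermat.Agent.S56.GEC.InflCoind
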