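/-
S56 / GEC-D5 (helper4): THE GLOBAL EULER CHARACTERISTIC FORMULA for `G_S`, from the equivariant count
D4 as ONE named hypothesis (`EquivariantCountQuot S p` = the statement of record of helper25's
`Equivariant/Main.equivariant_count_quot`, form (2)).

`Γ = Gal(ℚ̄/ℚ)`, `𝒰 = globalLevel S`, `p` odd, `p ∈ S`, `c = cc` the complex conjugation of record,
`f(Y) = h⁰ − h¹ + h² + dim Y^{c=−1}` (`Additive.eulerF`).

* `eulerF_coindRes_eq_zero_global` : `f(coind_V^Γ res_V Z) = 0` for a good field `L ⊇ μ_p`,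
  `G_L ≤ V`, `p ∤ [V : G_L]`, `Z` trivial on `G_L`  (D4 + (r4),(r5) + `MinusRegular` via `EulerCoind`);
* `fQuot_coindRes_zpowers` : `f` on `Γ ⧸ G_L` vanishes on `coind_{⟨τ⟩} res Z`, `p ∤ ord τ`
  (helper11's `InflCoind.inflCoindIso`);
* **`eulerF_eq_zero_of`** : `f ≡ 0` on finite-dimensional discrete `𝔽_p`-representations
  (helper13's `GoodField`, helper25's D1 `eulerF_eq_fQuot`/`fQuot_iso`/`fQuot_add_global`,
  helper1's induction theorem `Induction.rep_eq_zero_of_cyclic`);
* **`gec_of`** : `h¹(G_S, Y) = h²(G_S, Y) + h⁰(G_S, Y) + dim Y^{c=−1}`.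
-/
import Mathlib
import Fermat.Agent.S56.GEC.Additive
import Fermat.Agent.S56.GEC.Regular
import Fermat.Agent.S56.GEC.EulerCoind
import Fermat.Agent.S56.GEC.GoodField
import Fermat.Agent.S56.GEC.InflCoind
import Fermat.Agent.S56.GEC.Induction.RepForm
import Fermat.Agent.S56.GEC.Equivariant.Arch
import Fermat.Agent.S56.GEC.Equivariant.Twist
import Fermat.Agent.S56.GEC.Equivariant.MainCore

set_option autoImplicit false
set_option linter.unusedSectionVars false
set_option linter.style.haveILetI false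

namespace Fermat.Agent.S56.GEC.MainOf

open CategoryTheory Module ExtCitation Fermat.Agent.S55.Level Fermat.Agent.S55.LevelDuality
  Fermat.Agent.S55.Devissage Fermat.Agent.S55.GaloisLevel Fermat.Agent.S55.Assembly
  Fermat.Agent.S56.GEC.Additive
  Fermat.Agent.S56.GEC.Regular Fermat.Agent.S56.GEC.Equivariant.Mult
  Fermat.Agent.S56.GEC.Equivariant.RegularRep Fermat.Agent.S56.GEC.Equivariant.MinusRegular
  Fermat.Agent.S56.GEC.Equivariant.Arch Fermat.Agent.S56.GEC.EulerCoind
  Fermat.Agent.S56.GEC.InflCoind Fermat.Agent.S56.GEC.Induction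

local notation "Qbar" => AlgebraicClosure ℚ
local notation "Γ" => (AlgebraicClosure ℚ ≃ₐ[ℚ] AlgebraicClosure ℚ)

/-- **The statement of D4** (helper25's `Equivariant/Main.equivariant_count_quot`, form (2)): for a
good field `L` (number field, normal, unramified outside `S`, `μ_p ⊂ L`), `V ≤ Γ` with
`C := V ⧸ G_L` finite of order prime to `p`, every finite-dimensional `𝔽_p[C]`-module `N` and every
`C`-set `X_∞` equivariantly in bijection with the archimedean places of `L`:
`mult N A⁰ + mult N A² + mult N (𝔽_p[X_∞] ⊗ ω̄⁻¹) = mult N A¹`, `Aⁿ = Hⁿ(G_S, coind_{G_L}^Γ 𝔽_p)`. -/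
def EquivariantCountQuot (S : Finset Nat.Primes) (p : ℕ) [hpF : Fact p.Prime] : Prop :=
  ∀ (L : IntermediateField ℚ Qbar) [NumberField L] (_hL : L.IsUnramifiedOutside S)
    [Normal ℚ L] (hμp : ∀ ω : Qbar, ω ^ p = 1 → ω ∈ L)
    [L.fixingSubgroup.Normal] [IsOpenSub (globalLevel S) L.fixingSubgroup]
    (V : Subgroup Γ) [Fintype (↥V ⧸ L.fixingSubgroup.subgroupOf V)]
    (_hC : ¬ p ∣ Fintype.card (↥V ⧸ L.fixingSubgroup.subgroupOf V))
    {N : Type} [AddCommGroup N] [Module (ZMod p) N] [FiniteDimensional (ZMod p) N]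
    (ρN : Representation (ZMod p) (↥V ⧸ L.fixingSubgroup.subgroupOf V) N)
    {Xinf : Type} [MulAction (↥V ⧸ L.fixingSubgroup.subgroupOf V) Xinf]
    (einf : Xinf ≃ NumberField.InfinitePlace L)
    (_heinf : ∀ (v : V) (x : Xinf),
      einf ((QuotientGroup.mk v : ↥V ⧸ L.fixingSubgroup.subgroupOf V) • x) =
        AlgEquiv.restrictNormalHom L (v : Γ) • einf x),
    haveI := Fermat.Agent.S56.GEC.Equivariant.Twist.isDiscrete_I1 S L p
    mult ρN (cohRepQ L.fixingSubgroup V (globalLevel S) (Rep.trivial (ZMod p) Γ (ZMod p)) 0) +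
        mult ρN (cohRepQ L.fixingSubgroup V (globalLevel S) (Rep.trivial (ZMod p) Γ (ZMod p)) 2) +
        mult ρN (twist (permRep (ZMod p) (↥V ⧸ L.fixingSubgroup.subgroupOf V) Xinf)
          (Fermat.Agent.S56.GEC.Equivariant.Main.ωbarV L V hμp)⁻¹) =
      mult ρN (cohRepQ L.fixingSubgroup V (globalLevel S) (Rep.trivial (ZMod p) Γ (ZMod p)) 1)

variable (S : Finset Nat.Primes) {p : ℕ} [hpF : Fact p.Prime] (hp2 : p ≠ 2)
  (hpS : (⟨p, hpF.out⟩ : Nat.Primes) ∈ S) (hD4 : EquivariantCountQuot S p)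

section Cyclic

variable (L : IntermediateField ℚ Qbar) [NumberField L] (hL : L.IsUnramifiedOutside S)
  [hn : Normal ℚ L] (hμp : ∀ ω : Qbar, ω ^ p = 1 → ω ∈ L)
  [L.fixingSubgroup.Normal] [IsOpenSub (globalLevel S) L.fixingSubgroup]

include hD4 hL hμp in
/-- **The cyclic case**: the Euler function vanishes on `coind_V^Γ res_V Z`, `G_L ≤ V`, `[V : G_L]`
prime to `p`, `Z` trivial on `G_L`. -/
theorem eulerF_coindRes_eq_zero_global (V : Subgroup Γ) (hUV : L.fixingSubgroup ≤ V)
    [Fintype (↥V ⧸ L.fixingSubgroup.subgroupOf V)]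
    (hC : ¬ p ∣ Fintype.card (↥V ⧸ L.fixingSubgroup.subgroupOf V))
    (Z : Rep (ZMod p) Γ) [FiniteDimensional (ZMod p) Z]
    (hZ : ∀ u ∈ L.fixingSubgroup, ∀ z : Z, Z.ρ u z = z)
    [IsDiscrete (globalLevel S) (coindRes L.fixingSubgroup Z)]
    [IsDiscrete (globalLevel S) (coindRes V Z)] :
    eulerF (globalLevel S) cc (coindRes V Z) = 0 := by
  haveI := Fermat.Agent.S56.GEC.Equivariant.Twist.isDiscrete_I1 S L p
  have hχU := Fermat.Agent.S55.GL.Kummer.cycloChar_eq_one_of_mem_fixingSubgroup (p := p) L hμp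
  have hm : ((Fintype.card (↥V ⧸ L.fixingSubgroup.subgroupOf V) : ℕ) : ZMod p) ≠ 0 := by
    rw [Ne, ZMod.natCast_eq_zero_iff]
    exact hC
  haveI : Finite (Γ ⧸ W L.fixingSubgroup cc) :=
    Finite.of_equiv _ (infinitePlaceEquiv L).symm
  refine eulerF_coindRes_eq_zero (globalLevel S) Z hZ hUV hm cc (cycloChar p) hχU
    (cycloChar_cc p) ?_
  letI := quotMulAction L.fixingSubgroup V (W L.fixingSubgroup cc) le_sup_left
  have h := hD4 L hL hμp V hC (quotRep L.fixingSubgroup V Z hZ)
    (Xinf := Γ ⧸ W L.fixingSubgroup cc) (infinitePlaceEquiv L)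
    (fun v x => infinitePlaceEquiv_smul L (v : Γ) x)
  rw [Fermat.Agent.S56.GEC.Equivariant.Main.ωbarV_inv_eq_quotCharInv] at h
  exact h

/-- finite-dimensionality of `coind_V^G res_V A` for `U ≤ V`, `U` normal of finite index -/
theorem finiteDimensional_coindRes_of_le {k G : Type} [Field k] [Group G] {U V : Subgroup G}
    [U.Normal] [U.FiniteIndex] (A : Rep.{0} k G) [FiniteDimensional k A] (hUV : U ≤ V) :
    FiniteDimensional k (coindRes V A) :=
  haveI := finite_coindRes (U := U) A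
  Module.Finite.of_injective (inclVU U A V hUV).hom.toLinearMap (inclVU_injective A hUV)

include hD4 hL hμp in
/-- **`f` on `Γ ⧸ G_L` vanishes on the representations coinduced from a cyclic subgroup of order
prime to `p`.** -/
theorem fQuot_coindRes_zpowers (hU : L.fixingSubgroup ∈ (globalLevel S).sets)
    (τ : Γ ⧸ L.fixingSubgroup) (hτ : ¬ p ∣ orderOf τ)
    (Z : Rep (ZMod p) (Γ ⧸ L.fixingSubgroup)) [FiniteDimensional (ZMod p) Z] :
    fQuot (globalLevel S) cc hU
      (Rep.coind (Subgroup.zpowers τ).subtype (Rep.res (Subgroup.zpowers τ).subtype Z)) = 0 := by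
  haveI := (globalLevel S).finiteIndex _ hU
  haveI : Finite (Γ ⧸ L.fixingSubgroup) := Subgroup.finite_quotient_of_finiteIndex
  set C : Subgroup (Γ ⧸ L.fixingSubgroup) := Subgroup.zpowers τ with hCdef
  set V : Subgroup Γ := C.comap (QuotientGroup.mk' L.fixingSubgroup) with hVdef
  have hUV : L.fixingSubgroup ≤ V := le_comap L.fixingSubgroup C
  haveI : Finite (↥V ⧸ L.fixingSubgroup.subgroupOf V) :=
    Finite.of_equiv _ (quotComapEquiv L.fixingSubgroup C).symm.toEquiv
  haveI : Fintype (↥V ⧸ L.fixingSubgroup.subgroupOf V) := Fintype.ofFinite _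
  have hcard : Fintype.card (↥V ⧸ L.fixingSubgroup.subgroupOf V) = orderOf τ := by
    rw [← Nat.card_eq_fintype_card, Nat.card_congr (quotComapEquiv L.fixingSubgroup C).toEquiv,
      hCdef, Nat.card_zpowers]
  have hC : ¬ p ∣ Fintype.card (↥V ⧸ L.fixingSubgroup.subgroupOf V) := by rwa [hcard]
  haveI i1 : IsDiscrete (globalLevel S) (infl L.fixingSubgroup Z) := isDiscrete_infl hU Z
  haveI i2 : IsDiscrete (globalLevel S) (infl L.fixingSubgroup (coindRes C Z)) :=
    isDiscrete_infl hU _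
  haveI i3 : IsDiscrete (globalLevel S) (coindRes V (infl L.fixingSubgroup Z)) :=
    isDiscrete_coindRes_of_le _ hU hUV
  haveI i4 : IsDiscrete (globalLevel S) (coindRes L.fixingSubgroup (infl L.fixingSubgroup Z)) :=
    isDiscrete_coindRes _ hU
  haveI f1 : FiniteDimensional (ZMod p) (coindRes V (infl L.fixingSubgroup Z)) :=
    finiteDimensional_coindRes_of_le _ hUV
  have e := inflCoindIso L.fixingSubgroup C Z
  haveI f2 : FiniteDimensional (ZMod p) (infl L.fixingSubgroup (coindRes C Z)) :=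
    Module.Finite.of_injective e.hom.hom.toLinearMap (by
      intro a b hab
      have hab' : e.hom.hom a = e.hom.hom b := hab
      have := congrArg e.inv.hom hab'
      rwa [Rep.inv_hom_apply, Rep.inv_hom_apply] at this)
  show eulerF (globalLevel S) cc (infl L.fixingSubgroup (coindRes C Z)) = 0
  rw [eulerF_iso (globalLevel S) cc e]
  refine eulerF_coindRes_eq_zero_global S hD4 L hL hμp V hUV hC _ (fun u hu z => ?_)
  rw [infl_ρ_apply, (QuotientGroup.eq_one_iff u).2 hu, map_one]
  rfl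

end Cyclic

section Final

include hp2 hpS hD4 in
/-- **The Euler function of `G_S` vanishes identically** on finite-dimensional discrete
representations over `𝔽_p` (`p` odd, `p ∈ S`). -/
theorem eulerF_eq_zero_of (Y : Rep (ZMod p) Γ) [IsDiscrete (globalLevel S) Y]
    [FiniteDimensional (ZMod p) Y] : eulerF (globalLevel S) cc Y = 0 := by
  obtain ⟨L, hNF, hL, hnorm, hμp, hU, -, -, htriv⟩ :=
    Fermat.Agent.S56.GEC.GoodField.exists_goodField_trivializing (S := S) hpS Y
      (Fermat.Agent.S55.LevelGlobal.ker_cycloChar_mem_globalLevel (S := S) p hpS)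
  haveI := hNF
  haveI := hnorm
  haveI : L.fixingSubgroup.Normal := (globalLevel S).normal _ hU
  haveI : IsOpenSub (globalLevel S) L.fixingSubgroup := isOpenSub_of_mem _ hU
  haveI := (globalLevel S).finiteIndex _ hU
  haveI : Finite (Γ ⧸ L.fixingSubgroup) := Subgroup.finite_quotient_of_finiteIndex
  have hY : ∀ u ∈ L.fixingSubgroup, Y.ρ u = 1 := fun u hu => LinearMap.ext (htriv u hu)
  rw [eulerF_eq_fQuot (globalLevel S) cc hU Y hY]
  exact rep_eq_zero_of_cyclic (fQuot (globalLevel S) cc hU)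
    (fun _ _ _ _ e => fQuot_iso (globalLevel S) cc hU e)
    (fun _ _ _ _ hX => fQuot_add_global S hp2 hpS cc_mul_self hU hX)
    (fun τ hτ Z _ => fQuot_coindRes_zpowers S hD4 L hL hμp hU τ hτ Z)
    (deflate L.fixingSubgroup Y hY)

include hp2 hpS hD4 in
/-- **THE GLOBAL EULER CHARACTERISTIC FORMULA** (Tate), from D4: for `p` odd, `p ∈ S` and `Y` a
finite-dimensional discrete `𝔽_p`-representation of `G_S`,
`h¹(G_S, Y) = h²(G_S, Y) + h⁰(G_S, Y) + dim Y^{c = −1}`. -/
theorem gec_of (Y : Rep (ZMod p) Γ) [IsDiscrete (globalLevel S) Y]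
    [FiniteDimensional (ZMod p) Y] :
    finrank (ZMod p) (levelCohomology (globalLevel S) Y 1) =
      finrank (ZMod p) (levelCohomology (globalLevel S) Y 2) +
        finrank (ZMod p) (levelCohomology (globalLevel S) Y 0) +
        finrank (ZMod p) (minusPart cc Y) := by
  have h := eulerF_eq_zero_of S hp2 hpS hD4 Y
  unfold eulerF at h
  omega

end Final

end Fermat.Agent.S56.GEC.MainOf
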