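/-
S56 / GEC-D5 corollary (helper4): `hGEC` of `Asm/Final.result_of_hyps` — the global Euler
characteristic formula for `M = ad⁰ρ̄`, `h¹(G_S, M) = h²(G_S, M) + h⁰(G_S, M) + 2·[k : 𝔽_p]` — from the
equivariant count D4 as a named hypothesis (`MainOf.EquivariantCountQuot`), via `MainOf.gec_of` and
helper23's `Ad0ConjCC.finrank_minusPart_ad0_cc` (`dim M^{c=−1} = 2d`).
-/
import Mathlib
import Fermat.Agent.S56.GEC.MainOf
import Fermat.Agent.S56.Ad.Ad0ConjCC

set_option autoImplicit false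
set_option linter.unusedSectionVars false

namespace Fermat.Agent.S56.GEC.MainAd0Of

open Module ExtCitation Fermat.Agent.S55 Fermat.Agent.S55.Level Fermat.Agent.S55.GaloisLevel
  Fermat.Agent.S55.Assembly Fermat.Agent.S56.Ad Fermat.Agent.S56.GEC.Additive
  Fermat.Agent.S56.GEC.Equivariant.Arch

local notation "Qbar" => AlgebraicClosure ℚ
local notation "Γ" => (AlgebraicClosure ℚ ≃ₐ[ℚ] AlgebraicClosure ℚ)

variable {k : Type} [Field k] (ρbar : ResidualGaloisRep k)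
  (p : ℕ) [hpF : Fact p.Prime] [Algebra (ZMod p) k] [Module.Finite (ZMod p) k]

/-- `2 ≠ 0` in an `𝔽_p`-algebra which is a field, `p` odd. -/
theorem two_ne_zero_of_algebra (hp2 : p ≠ 2) : (2 : k) ≠ 0 := by
  have h : (2 : k) = algebraMap (ZMod p) k 2 := by rw [map_ofNat]
  rw [h, Ne, map_eq_zero_iff _ (algebraMap (ZMod p) k).injective]
  exact two_ne_zero_zmod hp2

/-- **`hGEC` from D4**: for every finite set of primes `Sg ∋ p` for which `ad⁰ρ̄` is discrete,
`h¹(G_Sg, ad⁰ρ̄) = h²(G_Sg, ad⁰ρ̄) + h⁰(G_Sg, ad⁰ρ̄) + 2·[k : 𝔽_p]` (`p` odd, `det ρ̄ = χ̄`). -/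
theorem hGEC_of (hp2 : p ≠ 2)
    (hdet : (GaloisRepAdic.ofResidualGaloisRep ρbar).DetIsCyclotomic p)
    (hD4 : ∀ Sg : Finset Nat.Primes, Fermat.Agent.S56.GEC.MainOf.EquivariantCountQuot Sg p) :
    ∀ (Sg : Finset Nat.Primes) [IsDiscrete (globalLevel Sg) (ad0 ρbar p)],
      pPrime p ∈ Sg →
      finrank (ZMod p) (levelCohomology (globalLevel Sg) (ad0 ρbar p) 1) =
        finrank (ZMod p) (levelCohomology (globalLevel Sg) (ad0 ρbar p) 2) +
          finrank (ZMod p) (levelCohomology (globalLevel Sg) (ad0 ρbar p) 0) +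
          2 * finrank (ZMod p) k := by
  intro Sg _ hpS
  rw [Fermat.Agent.S56.GEC.MainOf.gec_of Sg hp2 hpS (hD4 Sg) (ad0 ρbar p),
    finrank_minusPart_ad0_cc ρbar p hdet (two_ne_zero_of_algebra p hp2), mul_comm]

end Fermat.Agent.S56.GEC.MainAd0Of
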