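/-
S56 / GEC-D5 corollary (helper4): **`hGEC`**, the input (6) of `Asm/Final.result_of_hyps`,
hypothesis-free: for `M = ad⁰ρ̄` (`p` odd, `det ρ̄ = χ̄`) and every finite set of primes `Sg ∋ p` for
which `M` is discrete, `h¹(G_Sg, M) = h²(G_Sg, M) + h⁰(G_Sg, M) + 2·[k : 𝔽_p]`.

= `GEC/Main.gec` (the global Euler characteristic formula) + helper23's
`Ad0ConjCC.finrank_minusPart_ad0_cc` (`dim M^{c=−1} = 2d` for the complex conjugation of record).
-/
import Mathlib
import Fermat.Agent.S56.GEC.Main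
import Fermat.Agent.S56.GEC.MainAd0Of

set_option autoImplicit false
set_option linter.unusedSectionVars false

namespace Fermat.Agent.S56.GEC.MainAd0

open Module ExtCitation Fermat.Agent.S55 Fermat.Agent.S55.Level Fermat.Agent.S55.GaloisLevel
  Fermat.Agent.S55.Assembly Fermat.Agent.S56.Ad Fermat.Agent.S56.GEC.Additive
  Fermat.Agent.S56.GEC.Equivariant.Arch Fermat.Agent.S56.GEC.MainAd0Of

local notation "Qbar" => AlgebraicClosure ℚ
local notation "Γ" => (AlgebraicClosure ℚ ≃ₐ[ℚ] AlgebraicClosure ℚ)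

variable {k : Type} [Field k] (ρbar : ResidualGaloisRep k)
  (p : ℕ) [hpF : Fact p.Prime] [Algebra (ZMod p) k] [Module.Finite (ZMod p) k]

/-- **`hGEC`** (the input (6) of `Asm/Final.result_of_hyps`, hypothesis-free): for every finite set
of primes `Sg ∋ p` for which `ad⁰ρ̄` is discrete,
`h¹(G_Sg, ad⁰ρ̄) = h²(G_Sg, ad⁰ρ̄) + h⁰(G_Sg, ad⁰ρ̄) + 2·[k : 𝔽_p]` (`p` odd, `det ρ̄ = χ̄`). -/
theorem hGEC (hp2 : p ≠ 2)
    (hdet : (GaloisRepAdic.ofResidualGaloisRep ρbar).DetIsCyclotomic p) :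
    ∀ (Sg : Finset Nat.Primes) [IsDiscrete (globalLevel Sg) (ad0 ρbar p)],
      pPrime p ∈ Sg →
      finrank (ZMod p) (levelCohomology (globalLevel Sg) (ad0 ρbar p) 1) =
        finrank (ZMod p) (levelCohomology (globalLevel Sg) (ad0 ρbar p) 2) +
          finrank (ZMod p) (levelCohomology (globalLevel Sg) (ad0 ρbar p) 0) +
          2 * finrank (ZMod p) k := by
  intro Sg _ hpS
  rw [Fermat.Agent.S56.GEC.Main.gec Sg hp2 hpS (ad0 ρbar p),
    finrank_minusPart_ad0_cc ρbar p hdet (two_ne_zero_of_algebra p hp2), mul_comm]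

end Fermat.Agent.S56.GEC.MainAd0
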