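/-
S56 / GEC-D5 (helper4): THE GLOBAL EULER CHARACTERISTIC FORMULA for `G_S` — hypothesis-free final
forms (`MainOf` + helper25's D4 `Equivariant/Main.equivariant_count_quot`).
-/
import Mathlib
import Fermat.Agent.S56.GEC.MainOf
import Fermat.Agent.S56.GEC.Equivariant.Main

set_option autoImplicit false
set_option linter.unusedSectionVars false

namespace Fermat.Agent.S56.GEC.Main

open Module ExtCitation Fermat.Agent.S55.Level Fermat.Agent.S55.GaloisLevel
  Fermat.Agent.S56.GEC.Additive Fermat.Agent.S56.GEC.Equivariant.Arch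
  Fermat.Agent.S56.GEC.MainOf Fermat.Agent.S56.GEC.Equivariant.Main

local notation "Qbar" => AlgebraicClosure ℚ
local notation "Γ" => (AlgebraicClosure ℚ ≃ₐ[ℚ] AlgebraicClosure ℚ)

variable (S : Finset Nat.Primes) {p : ℕ} [hpF : Fact p.Prime] (hp2 : p ≠ 2)
  (hpS : (⟨p, hpF.out⟩ : Nat.Primes) ∈ S)

include hp2 hpS in
/-- **D4 in the consumer form of `MainOf`.** -/
theorem equivariantCountQuot : EquivariantCountQuot S p :=
  fun L _ hL _ hμp _ _ V _ hC _ _ _ _ ρN _ _ einf heinf =>
    equivariant_count_quot S hp2 hpS L hL hμp V hC ρN einf heinf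

include hp2 hpS in
/-- **The Euler function of `G_S` vanishes identically** (`p` odd, `p ∈ S`). -/
theorem eulerF_eq_zero (Y : Rep (ZMod p) Γ) [IsDiscrete (globalLevel S) Y]
    [FiniteDimensional (ZMod p) Y] : eulerF (globalLevel S) cc Y = 0 :=
  eulerF_eq_zero_of S hp2 hpS (equivariantCountQuot S hp2 hpS) Y

include hp2 hpS in
/-- **THE GLOBAL EULER CHARACTERISTIC FORMULA** (Tate): for `p` odd, `p ∈ S` and `Y` a
finite-dimensional discrete `𝔽_p`-representation of `G_S`,
`h¹(G_S, Y) = h²(G_S, Y) + h⁰(G_S, Y) + dim Y^{c = −1}`. -/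
theorem gec (Y : Rep (ZMod p) Γ) [IsDiscrete (globalLevel S) Y] [FiniteDimensional (ZMod p) Y] :
    finrank (ZMod p) (levelCohomology (globalLevel S) Y 1) =
      finrank (ZMod p) (levelCohomology (globalLevel S) Y 2) +
        finrank (ZMod p) (levelCohomology (globalLevel S) Y 0) +
        finrank (ZMod p) (minusPart cc Y) :=
  gec_of S hp2 hpS (equivariantCountQuot S hp2 hpS) Y

end Fermat.Agent.S56.GEC.Main
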